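import Fermat.Agent.LP.Frey.Defs

/-!
# LP-FREY (X): the nodal model in the three cases `p ∣ a`, `p ∣ b`, `p ∣ c`
-/

set_option autoImplicit false

namespace Fermat.Agent.LP.Frey

open WeierstrassCurve WeierstrassCurve.Affine WeierstrassCurve.Affine.Point
open Fermat.Agent.S05 Fermat.Agent.S13

/-- the product of an integral element and a `p`-th power of an integer divisible by `p` is small -/
lemma Cases_mem_nonunits (P : FreyPackage) (A : ValuationSubring Kb) (hA : A.LiesOverPrime P.p)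
    {n : ℤ} (hn : (P.p : ℤ) ∣ n) {z : Kb} (hz : z ∈ A) : z * (n : Kb) ^ P.p ∈ A.nonunits := by
  have h1 : (n : Kb) ∈ A.nonunits := (intCast_mem_nonunits_iff A P.pp hA n).mpr hn
  rw [A.mem_nonunits_iff] at h1 ⊢
  rw [map_mul, map_pow]
  have h2 : A.valuation z ≤ 1 := (A.valuation_le_one_iff z).mpr hz
  have h3 : A.valuation (n : Kb) ^ P.p < 1 := pow_lt_one₀ zero_le h1 P.pp.ne_zero
  calc A.valuation z * A.valuation (n : Kb) ^ P.p ≤ 1 * A.valuation (n : Kb) ^ P.p :=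
        mul_le_mul_left h2 _
    _ = A.valuation (n : Kb) ^ P.p := one_mul _
    _ < 1 := h3

lemma Cases_eval_Ψ₂Sq_zero (P : FreyPackage) : (P.freyCurve⁄Kb).Ψ₂Sq.eval 0 = 0 := by
  simp [WeierstrassCurve.Ψ₂Sq, frey_b₆_Kb P]

lemma Cases_eval_Ψ₃_zero (P : FreyPackage) :
    (P.freyCurve⁄Kb).Ψ₃.eval 0 = -((P.a : Kb) ^ P.p * (P.b : Kb) ^ P.p / 16) ^ 2 := by
  simp [WeierstrassCurve.Ψ₃, frey_b₈_Kb P]

lemma Cases_eval_Ψ₂Sq_a (P : FreyPackage) :
    (P.freyCurve⁄Kb).Ψ₂Sq.eval ((P.a : Kb) ^ P.p / 4) = 0 := by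
  simp only [WeierstrassCurve.Ψ₂Sq, Polynomial.eval_add, Polynomial.eval_mul,
    Polynomial.eval_C, Polynomial.eval_pow, Polynomial.eval_X, frey_b₆_Kb P, frey_b₂_Kb P,
    frey_b₄_Kb P]
  field_simp
  ring

lemma Cases_eval_Ψ₃_a (P : FreyPackage) :
    (P.freyCurve⁄Kb).Ψ₃.eval ((P.a : Kb) ^ P.p / 4) =
      -((P.a : Kb) ^ P.p * (P.c : Kb) ^ P.p / 16) ^ 2 := by
  simp only [WeierstrassCurve.Ψ₃, Polynomial.eval_add, Polynomial.eval_mul,
    Polynomial.eval_C, Polynomial.eval_pow, Polynomial.eval_X, Polynomial.eval_ofNat,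
    frey_b₆_Kb P, frey_b₂_Kb P, frey_b₄_Kb P, frey_b₈_Kb P, ← frey_FLT_Kb P]
  field_simp
  ring

lemma Cases_eval_Ψ₂Sq_b (P : FreyPackage) :
    (P.freyCurve⁄Kb).Ψ₂Sq.eval (-((P.b : Kb) ^ P.p / 4)) = 0 := by
  simp only [WeierstrassCurve.Ψ₂Sq, Polynomial.eval_add, Polynomial.eval_mul,
    Polynomial.eval_C, Polynomial.eval_pow, Polynomial.eval_X, frey_b₆_Kb P, frey_b₂_Kb P,
    frey_b₄_Kb P]
  field_simp
  ring

lemma Cases_eval_Ψ₃_b (P : FreyPackage) :
    (P.freyCurve⁄Kb).Ψ₃.eval (-((P.b : Kb) ^ P.p / 4)) =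
      -((P.b : Kb) ^ P.p * (P.c : Kb) ^ P.p / 16) ^ 2 := by
  simp only [WeierstrassCurve.Ψ₃, Polynomial.eval_add, Polynomial.eval_mul,
    Polynomial.eval_C, Polynomial.eval_pow, Polynomial.eval_X, Polynomial.eval_ofNat,
    frey_b₆_Kb P, frey_b₂_Kb P, frey_b₄_Kb P, frey_b₈_Kb P, ← frey_FLT_Kb P]
  field_simp
  ring

lemma Cases_val_sq (P : FreyPackage) (A : ValuationSubring Kb) (hA : A.LiesOverPrime P.p)
    {m n : ℤ} (hm : ¬ (P.p : ℤ) ∣ m) (hn : ¬ (P.p : ℤ) ∣ n) :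
    A.valuation (-((m : Kb) ^ P.p * (n : Kb) ^ P.p / 16) ^ 2) = 1 := by
  rw [Valuation.map_neg, map_pow, map_div₀, map_mul, map_pow, map_pow,
    freyP_val_intCast A P.pp hA hm, freyP_val_intCast A P.pp hA hn, freyP_val_sixteen P A hA]
  simp

/-- the node at `(0,0)`: the case `p ∣ ab`, with any admissible third root `e'`. -/
lemma Cases_nodeData_ab (P : FreyPackage) (A : ValuationSubring Kb) (hA : A.LiesOverPrime P.p)
    (hab : (P.p : ℤ) ∣ P.a ∨ (P.p : ℤ) ∣ P.b) (hc : ¬ (P.p : ℤ) ∣ P.c) (e' : Kb) (e'_mem : e' ∈ A)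
    (he' : (P.freyCurve⁄Kb).Ψ₂Sq.eval e' = 0)
    (he'3 : A.valuation ((P.freyCurve⁄Kb).Ψ₃.eval e') = 1) : Nonempty (NodeData P A) := by
  have hv16 := freyP_val_sixteen P A hA
  have hint : ∀ n : ℤ, ((n : Kb) ^ P.p) ∈ A := fun n => pow_mem (intCast_mem A n) _
  have h16 : (16 : Kb)⁻¹ ∈ A := inv_mem_of_val_eq_one A hv16
  refine ⟨{ e := 0
            c := -((P.a : Kb) ^ P.p * (P.b : Kb) ^ P.p) / 16
            r := (P.a : Kb) * (P.b : Kb)
            u := -1 / 16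
            e' := e'
            fix_e := fun σ => _root_.map_zero σ
            fix_r := fun σ => by rw [map_mul, map_intCast, map_intCast]
            he := by rw [frey_b₆_Kb]; ring
            hc := by rw [frey_b₄_Kb]; field_simp; ring
            e_mem := zero_mem A
            c_mem := ?_
            disc := ?_
            u_unit := ?_
            r_ne := mul_ne_zero (Int.cast_ne_zero.mpr P.ha0) (Int.cast_ne_zero.mpr P.hb0)
            hcr := by rw [mul_pow]; ring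
            e'_mem := e'_mem
            he' := he'
            he'3 := he'3 }⟩
  · rcases hab with ha | hb
    · have := Cases_mem_nonunits P A hA ha (z := -((P.b : Kb) ^ P.p) * (16 : Kb)⁻¹)
        (mul_mem (neg_mem (hint _)) h16)
      have e : -((P.a : Kb) ^ P.p * (P.b : Kb) ^ P.p) / 16 =
          -((P.b : Kb) ^ P.p) * (16 : Kb)⁻¹ * (P.a : Kb) ^ P.p := by ring
      rw [e]; exact this
    · have := Cases_mem_nonunits P A hA hb (z := -((P.a : Kb) ^ P.p) * (16 : Kb)⁻¹)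
        (mul_mem (neg_mem (hint _)) h16)
      have e : -((P.a : Kb) ^ P.p * (P.b : Kb) ^ P.p) / 16 =
          -((P.a : Kb) ^ P.p) * (16 : Kb)⁻¹ * (P.b : Kb) ^ P.p := by ring
      rw [e]; exact this
  · have : (12 * (0 : Kb) + (P.freyCurve⁄Kb).b₂) ^ 2 -
        64 * (-((P.a : Kb) ^ P.p * (P.b : Kb) ^ P.p) / 16) = ((P.c : Kb) ^ P.p) ^ 2 := by
      rw [frey_b₂_Kb, ← frey_FLT_Kb P]; field_simp; ring
    rw [this, map_pow, map_pow, freyP_val_intCast A P.pp hA hc, one_pow, one_pow]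
  · rw [map_div₀, Valuation.map_neg, map_one, hv16, div_one]

/-- `Ψ₂Sq = 4 X (X - a^p/4)(X + b^p/4)`.
* `p ∣ c`: `e = a^p/4`, `c = a^p c^p/16`, `u = 1/16`, `r = a c`, `disc = (b^p)²`, `e' = 0`,
  `Ψ₃(0) = -(a^p b^p/16)²`;
* `p ∣ a`: `e = 0`, `c = -a^p b^p/16`, `u = -1/16`, `r = a b`, `disc = (c^p)²`, `e' = -b^p/4`,
  `Ψ₃(e') = -(b^p c^p/16)²`;
* `p ∣ b`: the same with `e' = a^p/4`, `Ψ₃(e') = -(a^p c^p/16)²`.
All the computations are in `S13/FreyP.lean` (`frey_exists_torsion`, `frey_local_p`) and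
`S05.lean`. -/
theorem exists_nodeData (P : FreyPackage) (hpabc : (P.p : ℤ) ∣ P.a * P.b * P.c)
    (A : ValuationSubring Kb) (hA : A.LiesOverPrime P.p) : Nonempty (NodeData P A) := by
  have hv4 := freyP_val_four P A hA
  have hv16 := freyP_val_sixteen P A hA
  have hint : ∀ n : ℤ, ((n : Kb) ^ P.p) ∈ A := fun n => pow_mem (intCast_mem A n) _
  have h4 : (4 : Kb)⁻¹ ∈ A := inv_mem_of_val_eq_one A hv4
  have h16 : (16 : Kb)⁻¹ ∈ A := inv_mem_of_val_eq_one A hv16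
  have hdiv4 : ∀ z : Kb, z ∈ A → z / 4 ∈ A := by
    intro z hz
    rw [div_eq_mul_inv]
    exact mul_mem hz h4
  have hpp : Prime (P.p : ℤ) := Nat.prime_iff_prime_int.mp P.pp
  rcases hpp.dvd_or_dvd hpabc with hab | hc
  · rcases hpp.dvd_or_dvd hab with ha | hb
    · have hb : ¬ (P.p : ℤ) ∣ P.b := frey_not_dvd_of_gcd P.hgcdab P.p P.pp ha
      have hc : ¬ (P.p : ℤ) ∣ P.c := frey_not_dvd_of_gcd P.hgcdac P.p P.pp ha
      refine Cases_nodeData_ab P A hA (Or.inl ha) hc (-((P.b : Kb) ^ P.p / 4))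
        (neg_mem (hdiv4 _ (hint _))) (Cases_eval_Ψ₂Sq_b P) ?_
      rw [Cases_eval_Ψ₃_b]
      exact Cases_val_sq P A hA hb hc
    · have ha : ¬ (P.p : ℤ) ∣ P.a := fun h => frey_not_dvd_of_gcd P.hgcdab P.p P.pp h hb
      have hc : ¬ (P.p : ℤ) ∣ P.c := frey_not_dvd_of_gcd P.hgcdbc P.p P.pp hb
      refine Cases_nodeData_ab P A hA (Or.inr hb) hc ((P.a : Kb) ^ P.p / 4)
        (hdiv4 _ (hint _)) (Cases_eval_Ψ₂Sq_a P) ?_
      rw [Cases_eval_Ψ₃_a]
      exact Cases_val_sq P A hA ha hc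
  · have ha : ¬ (P.p : ℤ) ∣ P.a := fun h => frey_not_dvd_of_gcd P.hgcdac P.p P.pp h hc
    have hb : ¬ (P.p : ℤ) ∣ P.b := fun h => frey_not_dvd_of_gcd P.hgcdbc P.p P.pp h hc
    refine ⟨{ e := (P.a : Kb) ^ P.p / 4
              c := (P.a : Kb) ^ P.p * (P.c : Kb) ^ P.p / 16
              r := (P.a : Kb) * (P.c : Kb)
              u := 1 / 16
              e' := 0
              fix_e := fun σ => by rw [map_div₀, map_pow, map_intCast, map_ofNat]
              fix_r := fun σ => by rw [map_mul, map_intCast, map_intCast]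
              he := by rw [frey_b₂_Kb, frey_b₄_Kb, frey_b₆_Kb]; field_simp; ring
              hc := by rw [frey_b₂_Kb, frey_b₄_Kb, ← frey_FLT_Kb P]; field_simp; ring
              e_mem := hdiv4 _ (hint _)
              c_mem := ?_
              disc := ?_
              u_unit := ?_
              r_ne := mul_ne_zero (Int.cast_ne_zero.mpr P.ha0) (Int.cast_ne_zero.mpr P.hc0)
              hcr := by rw [mul_pow]; ring
              e'_mem := zero_mem A
              he' := Cases_eval_Ψ₂Sq_zero P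
              he'3 := ?_ }⟩
    · have := Cases_mem_nonunits P A hA hc (z := (P.a : Kb) ^ P.p * (16 : Kb)⁻¹)
        (mul_mem (hint _) h16)
      have e : (P.a : Kb) ^ P.p * (P.c : Kb) ^ P.p / 16 =
          (P.a : Kb) ^ P.p * (16 : Kb)⁻¹ * (P.c : Kb) ^ P.p := by ring
      rw [e]; exact this
    · have : (12 * ((P.a : Kb) ^ P.p / 4) + (P.freyCurve⁄Kb).b₂) ^ 2 -
          64 * ((P.a : Kb) ^ P.p * (P.c : Kb) ^ P.p / 16) = ((P.b : Kb) ^ P.p) ^ 2 := by
        rw [frey_b₂_Kb, ← frey_FLT_Kb P]; field_simp; ring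
      rw [this, map_pow, map_pow, freyP_val_intCast A P.pp hA hb, one_pow, one_pow]
    · rw [map_div₀, map_one, hv16, div_one]
    · rw [Cases_eval_Ψ₃_zero]
      exact Cases_val_sq P A hA ha hb

end Fermat.Agent.LP.Frey
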