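import Mathlib

/-!
# LP-FREY (C): the valuation of `ζ - 1`
-/

set_option autoImplicit false

namespace Fermat.Agent.LP.Frey

variable {K : Type*} [Field K] (A : ValuationSubring K)

theorem zeta_mem {ζ : K} {n : ℕ} (hn : 0 < n) (h : ζ ^ n = 1) : ζ ∈ A := by
  rw [← A.valuation_le_one_iff]
  have h1 : A.valuation ζ ^ n = 1 := by rw [← map_pow, h, map_one]
  exact ((pow_eq_one_iff_of_nonneg zero_le hn.ne').1 h1).le

/-- `ζ ^ i - 1 = (ζ - 1)(1 + ζ + ... + ζ ^ (i-1))` -/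
theorem val_zeta_pow_sub_one_le {ζ : K} (hζA : ζ ∈ A) (i : ℕ) :
    A.valuation (ζ ^ i - 1) ≤ A.valuation (ζ - 1) := by
  rw [← geom_sum_mul, map_mul]
  have h1 : A.valuation (∑ j ∈ Finset.range i, ζ ^ j) ≤ 1 :=
    (A.valuation_le_one_iff _).2 (sum_mem fun j _ => pow_mem hζA j)
  calc _ ≤ 1 * A.valuation (ζ - 1) := mul_le_mul' h1 le_rfl
    _ = _ := one_mul _

/-- `∏_{0<i<p} (1 - ζ ^ i) = p` and `w (1 - ζ ^ i) = w (1 - ζ)` for `p ∤ i`
(`≤` by the previous lemma, `≥` by the previous lemma for `ζ ^ i` and `j` with `i j = 1 mod p`). -/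
theorem val_zeta_sub_one_pow {p : ℕ} (hp : p.Prime) {ζ : K} (hζ : IsPrimitiveRoot ζ p) :
    A.valuation (ζ - 1) ^ (p - 1) = A.valuation (p : K) := by
  have hζA : ζ ∈ A := zeta_mem A hp.pos hζ.pow_eq_one
  have key : ∀ i : ℕ, ¬ p ∣ i → A.valuation (ζ ^ i - 1) = A.valuation (ζ - 1) := by
    intro i hi
    refine le_antisymm (val_zeta_pow_sub_one_le A hζA i) ?_
    obtain ⟨j, -, hj⟩ := Nat.exists_mul_mod_eq_one_of_coprime
      ((Nat.Prime.coprime_iff_not_dvd hp).2 hi).symm hp.one_lt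
    have h1 : (ζ ^ i) ^ j = ζ := by
      rw [← pow_mul, ← Nat.div_add_mod (i * j) p, pow_add, pow_mul, hζ.pow_eq_one, one_pow,
        one_mul, hj, pow_one]
    have h2 := val_zeta_pow_sub_one_le A (pow_mem hζA i) j
    rwa [h1] at h2
  obtain ⟨n, rfl⟩ : ∃ n, p = n + 1 := ⟨p - 1, (Nat.succ_pred_eq_of_pos hp.pos).symm⟩
  have h := congrArg A.valuation hζ.prod_one_sub_pow_eq_order
  rw [map_prod] at h
  rw [Nat.add_sub_cancel, Nat.cast_add, Nat.cast_one, ← h]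
  rw [Finset.prod_congr rfl (fun k hk => ?_), Finset.prod_const, Finset.card_range]
  rw [Valuation.map_sub_swap]
  refine key (k + 1) fun hdvd => ?_
  have h1 := Nat.le_of_dvd (Nat.succ_pos k) hdvd
  have h2 := Finset.mem_range.1 hk
  omega

end Fermat.Agent.LP.Frey
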