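import Fermat.Agent.S13.FreyP
import Fermat.Agent.S13.RatProd

/-!
# LP-FREY: definitions

`P` a Frey package, `A` a valuation subring of `ℚ̄` over `p = P.p`, `p ∣ abc`.
* `HE P A ζ` : elements of the inertia group fixing `ζ` and all of `E[p]`;
* `H1 P A ζ` : elements of the inertia group fixing `ζ` and `E[p] ∩ E₁` (points with `x ∉ A`);
* `fixF H`   : the fixed field of a subgroup `H` of `Gal(ℚ̄/ℚ)`;
* `NodeData P A` : the model `ψ² = 4ξ³ + Bξ² + 4cξ` (`ξ = x - e`) with the node at `ξ = 0`,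
  `c = u r ^ p`, and a third root `e'` of the 2-division polynomial, with non-singular reduction.
-/

set_option autoImplicit false

namespace Fermat.Agent.LP.Frey

open WeierstrassCurve WeierstrassCurve.Affine WeierstrassCurve.Affine.Point
open Fermat.Agent.S05 Fermat.Agent.S13

variable (P : FreyPackage) (A : ValuationSubring Kb)

/-- inertia elements fixing `ζ` and the whole of `E[p]` -/
def HE (ζ : Kb) : Subgroup GalQ where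
  carrier := {σ | σ ∈ A.inertiaSubgroupIn ℚ ∧ σ ζ = ζ ∧ ∀ Q : Pt P, P.p • Q = 0 → σ • Q = Q}
  mul_mem' := by
    rintro σ τ ⟨h1, h2, h3⟩ ⟨k1, k2, k3⟩
    refine ⟨mul_mem h1 k1, ?_, fun Q hQ => ?_⟩
    · rw [AlgEquiv.mul_apply, k2, h2]
    · rw [mul_smul, k3 Q hQ, h3 Q hQ]
  one_mem' := ⟨one_mem _, rfl, fun Q _ => one_smul _ Q⟩
  inv_mem' := by
    rintro σ ⟨h1, h2, h3⟩
    refine ⟨inv_mem h1, ?_, fun Q hQ => ?_⟩
    · have : σ⁻¹ (σ ζ) = ζ := by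
        rw [← AlgEquiv.mul_apply, inv_mul_cancel, AlgEquiv.one_apply]
      rwa [h2] at this
    · rw [inv_smul_eq_iff, h3 Q hQ]

/-- inertia elements fixing `ζ` and the points of `E[p]` in the kernel of reduction -/
def H1 (ζ : Kb) : Subgroup GalQ where
  carrier := {σ | σ ∈ A.inertiaSubgroupIn ℚ ∧ σ ζ = ζ ∧
    ∀ Q : Pt P, P.p • Q = 0 → xc Q ∉ A → σ • Q = Q}
  mul_mem' := by
    rintro σ τ ⟨h1, h2, h3⟩ ⟨k1, k2, k3⟩
    refine ⟨mul_mem h1 k1, ?_, fun Q hQ hx => ?_⟩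
    · rw [AlgEquiv.mul_apply, k2, h2]
    · rw [mul_smul, k3 Q hQ hx, h3 Q hQ hx]
  one_mem' := ⟨one_mem _, rfl, fun Q _ _ => one_smul _ Q⟩
  inv_mem' := by
    rintro σ ⟨h1, h2, h3⟩
    refine ⟨inv_mem h1, ?_, fun Q hQ hx => ?_⟩
    · have : σ⁻¹ (σ ζ) = ζ := by
        rw [← AlgEquiv.mul_apply, inv_mul_cancel, AlgEquiv.one_apply]
      rwa [h2] at this
    · rw [inv_smul_eq_iff, h3 Q hQ hx]

variable {P A}

lemma mem_HE {ζ : Kb} {σ : GalQ} : σ ∈ HE P A ζ ↔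
    σ ∈ A.inertiaSubgroupIn ℚ ∧ σ ζ = ζ ∧ ∀ Q : Pt P, P.p • Q = 0 → σ • Q = Q := Iff.rfl

lemma mem_H1 {ζ : Kb} {σ : GalQ} : σ ∈ H1 P A ζ ↔
    σ ∈ A.inertiaSubgroupIn ℚ ∧ σ ζ = ζ ∧
      ∀ Q : Pt P, P.p • Q = 0 → xc Q ∉ A → σ • Q = Q := Iff.rfl

lemma HE_le_H1 (ζ : Kb) : HE P A ζ ≤ H1 P A ζ :=
  fun _ h => ⟨h.1, h.2.1, fun Q hQ _ => h.2.2 Q hQ⟩

/-- the fixed field of a subgroup of `Gal(ℚ̄/ℚ)` -/
def fixF (H : Subgroup GalQ) : Subfield Kb where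
  carrier := {x | ∀ σ ∈ H, σ x = x}
  mul_mem' := fun {x y} hx hy σ hσ => by rw [map_mul, hx σ hσ, hy σ hσ]
  one_mem' := fun σ _ => map_one σ
  add_mem' := fun {x y} hx hy σ hσ => by rw [map_add, hx σ hσ, hy σ hσ]
  zero_mem' := fun σ _ => map_zero σ
  neg_mem' := fun {x} hx σ hσ => by rw [map_neg, hx σ hσ]
  inv_mem' := fun x hx σ hσ => by rw [map_inv₀, hx σ hσ]

lemma mem_fixF {H : Subgroup GalQ} {x : Kb} : x ∈ fixF H ↔ ∀ σ ∈ H, σ x = x := Iff.rfl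

variable (P A)

/-- the nodal model of the Frey curve at `p ∣ abc` -/
structure NodeData where
  e : Kb
  c : Kb
  r : Kb
  u : Kb
  e' : Kb
  fix_e : ∀ σ : GalQ, σ e = e
  fix_r : ∀ σ : GalQ, σ r = r
  he : 4 * e ^ 3 + (P.freyCurve⁄Kb).b₂ * e ^ 2 + 2 * (P.freyCurve⁄Kb).b₄ * e +
    (P.freyCurve⁄Kb).b₆ = 0
  hc : 2 * c = 6 * e ^ 2 + (P.freyCurve⁄Kb).b₂ * e + (P.freyCurve⁄Kb).b₄
  e_mem : e ∈ A
  c_mem : c ∈ A.nonunits
  disc : A.valuation ((12 * e + (P.freyCurve⁄Kb).b₂) ^ 2 - 64 * c) = 1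
  u_unit : A.valuation u = 1
  r_ne : r ≠ 0
  hcr : c = u * r ^ P.p
  e'_mem : e' ∈ A
  he' : (P.freyCurve⁄Kb).Ψ₂Sq.eval e' = 0
  he'3 : A.valuation ((P.freyCurve⁄Kb).Ψ₃.eval e') = 1

variable {P A}

namespace NodeData

variable (N : NodeData P A)

/-- the `XiData` of the nodal model -/
noncomputable def D : XiData Kb (Pt P) :=
  xiDataOfCurve (P.freyCurve⁄Kb) two_ne_zero N.e N.c N.he N.hc

lemma D_ξ (Q : Pt P) : N.D.ξ Q = xc Q - N.e := rfl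
lemma D_ψ (Q : Pt P) : N.D.ψ Q = ps Q := rfl
lemma D_B : N.D.B = 12 * N.e + (P.freyCurve⁄Kb).b₂ := rfl
lemma D_c : N.D.c = N.c := rfl

lemma c_ne : N.c ≠ 0 := by
  rw [N.hcr]
  exact mul_ne_zero (val_ne_zero_of_eq_one A N.u_unit) (pow_ne_zero _ N.r_ne)

end NodeData

end Fermat.Agent.LP.Frey
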