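import Fermat.Agent.S05.XiData
import Fermat.Agent.S05.Val

/-!
# LP-FREY (D): translation by a point of the kernel of reduction

`X = ξ Q ∈ A`, `x₁ = ξ P₁ ∉ A`.  `z = ξ (Q + P₁)` is a root of `z² - S z + Π`, with `S`, `Π` given by
`sum_formula`, `prod_formula`.  So `δ = z - X` satisfies `δ² - s₁ δ + s₀ = 0` with
  `s₀ (X - x₁)² = - x₁ ψ(Q)² + (X² - c)²`,
  `s₁ (X - x₁)² = x₁ (2c + 6X² + BX) + 2 X (c - X²)`.
If `w c ≤ w X` and `w (ψ Q) = w X` then `w s₀ * w x₁ = w X ^ 2`, `w s₁ * w x₁ ≤ w X`, and the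
Newton polygon gives `w δ ^ 2 = w s₀`.
-/

set_option autoImplicit false

namespace Fermat.Agent.LP.Frey

open Fermat.Agent.S05

universe u v

variable {K : Type u} [Field K] {G : Type v} [AddCommGroup G] (D : XiData K G)
  (A : ValuationSubring K)

/-- Newton polygon of a quadratic: `δ² - s₁ δ + s₀ = 0`, `w s₁ ^ 2 < w s₀` ⟹ `w δ ^ 2 = w s₀`. -/
theorem val_sq_of_quadratic {Γ : Type*} [LinearOrderedCommGroupWithZero Γ] (w : Valuation K Γ)
    {δ s₁ s₀ : K} (h : δ ^ 2 - s₁ * δ + s₀ = 0) (hs : w s₁ ^ 2 < w s₀) : w δ ^ 2 = w s₀ := by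
  have h0 : s₀ = δ * (s₁ - δ) := by linear_combination h
  rcases le_or_gt (w δ) (w s₁) with hle | hlt
  · exfalso
    have h1 : w (s₁ - δ) ≤ w s₁ := (w.map_sub _ _).trans (max_le le_rfl hle)
    have : w s₀ ≤ w s₁ ^ 2 := by
      rw [h0, map_mul, sq]
      exact mul_le_mul' hle h1
    exact absurd hs (not_lt.mpr this)
  · rw [h0, map_mul, Valuation.map_sub_eq_of_lt_right w hlt, sq]

theorem delta_val (hB : D.B ∈ A) {Q P₁ : G} (hQ : Q ≠ 0) (hP₁ : P₁ ≠ 0) (hx₁ : D.ξ P₁ ∉ A)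
    (hξA : D.ξ Q ∈ A) (hξ0 : D.ξ Q ≠ 0) (hc : A.valuation D.c ≤ A.valuation (D.ξ Q))
    (hψ : A.valuation (D.ψ Q) = A.valuation (D.ξ Q)) :
    A.valuation (D.ξ (Q + P₁) - D.ξ Q) ^ 2 * A.valuation (D.ξ P₁) =
      A.valuation (D.ξ Q) ^ 2 := by
  have hne : D.ξ Q ≠ D.ξ P₁ := fun h => hx₁ (h ▸ hξA)
  have hS := D.sum_formula hQ hP₁ hne
  have hPr := D.prod_formula hQ hP₁ hne
  have hψ2 := D.ψ_sq Q hQ
  set X := D.ξ Q with hX
  set x₁ := D.ξ P₁ with hx
  set zp := D.ξ (Q + P₁) with hzp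
  set zm := D.ξ (Q - P₁) with hzm
  set w := A.valuation with hw
  set a := w X with ha
  set t := w x₁ with ht
  have ht1 : 1 < t := by
    rw [← not_le, ht, hw, A.valuation_le_one_iff]; exact hx₁
  have ha1 : a ≤ 1 := (A.valuation_le_one_iff _).mpr hξA
  have ha0 : a ≠ 0 := by rwa [ha, ne_eq, map_eq_zero]
  have ht0 : t ≠ 0 := (zero_lt_one.trans ht1).ne'
  have hwB : w D.B ≤ 1 := (A.valuation_le_one_iff _).mpr hB
  have hint : ∀ n : ℕ, w (n : K) ≤ 1 := fun n => (A.valuation_le_one_iff _).mpr (natCast_mem A n)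
  have hXx : w (X - x₁) = t := Valuation.map_sub_eq_of_lt_right w (ha1.trans_lt ht1)
  have haa : a ^ 2 ≤ a := by
    rw [sq]; exact mul_le_of_le_one_left' ha1
  -- `X² - c`
  have hXc : w (X ^ 2 - D.c) ≤ a := by
    refine (w.map_sub _ _).trans (max_le ?_ hc)
    rw [map_pow]; exact haa
  set s₁ := zp + zm - 2 * X with hs₁
  set s₀ := X ^ 2 - (zp + zm) * X + zp * zm with hs₀
  have hquad : (zp - X) ^ 2 - s₁ * (zp - X) + s₀ = 0 := by rw [hs₁, hs₀]; ring
  have e0 : s₀ * (X - x₁) ^ 2 = - (x₁ * D.ψ Q ^ 2) + (X ^ 2 - D.c) ^ 2 := by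
    rw [hs₀]
    linear_combination (-X) * hS + hPr + x₁ * hψ2
  have e1 : s₁ * (X - x₁) ^ 2 = x₁ * (2 * D.c + 6 * X ^ 2 + D.B * X) + 2 * X * (D.c - X ^ 2) := by
    rw [hs₁]
    linear_combination hS
  -- valuations
  have v0 : w s₀ * t ^ 2 = t * a ^ 2 := by
    have h1 : w (- (x₁ * D.ψ Q ^ 2)) = t * a ^ 2 := by
      rw [Valuation.map_neg, map_mul, map_pow, hψ]
    have h2 : w ((X ^ 2 - D.c) ^ 2) < w (- (x₁ * D.ψ Q ^ 2)) := by
      rw [h1, map_pow]
      calc w (X ^ 2 - D.c) ^ 2 ≤ a ^ 2 := pow_le_pow_left₀ zero_le hXc 2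
        _ = 1 * a ^ 2 := (one_mul _).symm
        _ < t * a ^ 2 := mul_lt_mul_of_pos_right ht1 (zero_lt_iff.mpr (pow_ne_zero 2 ha0))
    have := congrArg w e0
    rw [map_mul, map_pow, hXx, Valuation.map_add_eq_of_lt_left w h2, h1] at this
    exact this
  have v1 : w s₁ * t ^ 2 ≤ t * a := by
    have := congrArg w e1
    rw [map_mul, map_pow, hXx] at this
    rw [this]
    refine (w.map_add _ _).trans (max_le ?_ ?_)
    · rw [map_mul]
      refine mul_le_mul_right ?_ _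
      refine (w.map_add _ _).trans (max_le ((w.map_add _ _).trans (max_le ?_ ?_)) ?_)
      · rw [map_mul]
        calc w 2 * w D.c ≤ 1 * a := mul_le_mul' (by exact_mod_cast hint 2) hc
          _ = a := one_mul _
      · rw [map_mul, map_pow]
        calc w 6 * a ^ 2 ≤ 1 * a := mul_le_mul' (by exact_mod_cast hint 6) haa
          _ = a := one_mul _
      · rw [map_mul]
        calc w D.B * a ≤ 1 * a := mul_le_mul' hwB le_rfl
          _ = a := one_mul _
    · rw [map_mul, map_mul]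
      have h3 : w (D.c - X ^ 2) ≤ 1 := by
        rw [← Valuation.map_neg, neg_sub]; exact hXc.trans ha1
      calc w 2 * a * w (D.c - X ^ 2) ≤ 1 * a * 1 :=
            mul_le_mul' (mul_le_mul' (by exact_mod_cast hint 2) le_rfl) h3
        _ = 1 * a := by rw [mul_one]
        _ ≤ t * a := mul_le_mul' ht1.le le_rfl
  have v0' : w s₀ * t = a ^ 2 := by
    apply mul_right_cancel₀ ht0
    rw [mul_assoc, ← sq, v0, mul_comm]
  have v1' : w s₁ * t ≤ a := by
    have : w s₁ * t * t ≤ a * t := by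
      rw [mul_assoc, ← sq, mul_comm a]; exact v1
    exact le_of_mul_le_mul_right this (zero_lt_iff.mpr ht0)
  have hs0 : w s₀ ≠ 0 := by
    intro h
    rw [h, zero_mul] at v0'
    exact pow_ne_zero 2 ha0 v0'.symm
  have hlt : w s₁ ^ 2 < w s₀ := by
    have h1 : w s₁ ^ 2 * t ^ 2 ≤ w s₀ * t := by
      rw [← mul_pow, v0']; exact pow_le_pow_left₀ zero_le v1' 2
    have h2 : w s₀ * t < w s₀ * t ^ 2 := by
      rw [sq, ← mul_assoc]
      exact lt_mul_of_one_lt_right (zero_lt_iff.mpr (mul_ne_zero hs0 ht0)) ht1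
    exact lt_of_mul_lt_mul_right (h1.trans_lt h2) zero_le
  rw [val_sq_of_quadratic w hquad hlt, v0']

end Fermat.Agent.LP.Frey
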