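import Fermat.Agent.LP.Frey.Defs

/-!
# LP-FREY (G): `p`-torsion points of the kernel of reduction are not too deep

`v(1/x(P₁)) ≤ 2 v(p)/(p-1)` for a suitable multiple of `P₁`.  No formal groups: the `(p-1)/2`
abscissas `x(k P₁)`, `1 ≤ k ≤ (p-1)/2`, are distinct non-integral roots of the division polynomial
`preΨ p`, which has integral coefficients and leading coefficient `p`.
-/

set_option autoImplicit false

namespace Fermat.Agent.LP.Frey

open WeierstrassCurve WeierstrassCurve.Affine WeierstrassCurve.Affine.Point Polynomial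
open Fermat.Agent.S05 Fermat.Agent.S13

/-- PROOF. Induction on `S` (generalizing `g`): `g = (X - C s) * h`, by
`S13.coeff_mem_of_mul_X_sub_C'` the polynomial `C s * h` has coefficients in `A`, its leading
coefficient is `s * g.leadingCoeff`, and the other elements of `S` are still roots of it. -/
theorem leadingCoeff_mul_prod_mem {K : Type*} [Field K] [DecidableEq K] (A : ValuationSubring K)
    (S : Finset K) {g : K[X]} (hg : ∀ i, g.coeff i ∈ A)
    (hS : ∀ s ∈ S, g.eval s = 0 ∧ s ∉ A) : g.leadingCoeff * ∏ s ∈ S, s ∈ A := by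
  induction S using Finset.induction_on generalizing g with
  | empty =>
    rw [Finset.prod_empty, mul_one]
    exact hg _
  | insert s S hs ih =>
    have hs1 := hS s (Finset.mem_insert_self s S)
    obtain ⟨h, hgh⟩ : (X - C s) ∣ g := dvd_iff_isRoot.2 hs1.1
    have hcoef := coeff_mem_of_mul_X_sub_C' A hg hgh hs1.2
    have hroots : ∀ t ∈ S, (C s * h).eval t = 0 ∧ t ∉ A := by
      intro t ht
      have ht1 := hS t (Finset.mem_insert_of_mem ht)
      refine ⟨?_, ht1.2⟩
      have hne : t ≠ s := fun e => hs (e ▸ ht)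
      have h1 := ht1.1
      rw [hgh, eval_mul, eval_sub, eval_X, eval_C] at h1
      have h2 : h.eval t = 0 := (mul_eq_zero.1 h1).resolve_left (sub_ne_zero.2 hne)
      rw [eval_mul, h2, mul_zero]
    have h3 := ih hcoef hroots
    have hlc : (C s * h).leadingCoeff = s * g.leadingCoeff := by
      rw [leadingCoeff_mul, leadingCoeff_C, hgh, leadingCoeff_mul, leadingCoeff_X_sub_C, one_mul]
    rw [hlc] at h3
    rw [Finset.prod_insert hs]
    have e : g.leadingCoeff * (s * ∏ x ∈ S, x) = s * g.leadingCoeff * ∏ x ∈ S, x := by ring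
    rw [e]
    exact h3

variable {P : FreyPackage} {A : ValuationSubring Kb}

/-- PROOF. `S := image (fun k => xc (k • P₁)) (Icc 1 ((p-1)/2))`; injective since
`xc (k • P₁) = xc (l • P₁)` gives `k • P₁ = ± l • P₁` (`S05.eq_or_eq_neg_of_xc_eq`), i.e.
`p ∣ k - l` or `p ∣ k + l`.  Roots: `S13.eval_preΨ_of_torsion`; non-integral: `S13.rp_nsmul`;
coefficients: `S13.coeff_preΨ_mem`, `S13.frey_coeff_mem`; leading coefficient:
`S13.leadingCoeff_preΨ_prime`.  So `w p * ∏_k w (xc (k • P₁)) ≤ 1`; take `k` minimising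
`w (xc (k • P₁))` (`Finset.exists_min_image`, `Finset.pow_card_le_prod`). -/
theorem exists_shallow {P₁ : Pt P} (h0 : P₁ ≠ 0) (hp : P.p • P₁ = 0) (hx : xc P₁ ∉ A) :
    ∃ k : ℕ, ¬ P.p ∣ k ∧
      A.valuation (P.p : Kb) * A.valuation (xc (k • P₁)) ^ ((P.p - 1) / 2) ≤ 1 := by
  classical
  have hpp : P.p.Prime := P.pp
  have hp5 : 5 ≤ P.p := P.hp5
  have hp2 : P.p ≠ 2 := by omega
  have hfact : Fact P.p.Prime := ⟨hpp⟩
  have hord : addOrderOf P₁ = P.p := addOrderOf_eq_prime hp h0
  have hne : ∀ k : ℕ, 1 ≤ k → k < P.p → k • P₁ ≠ 0 := nsmul_ne_zero_of_prime hpp h0 hp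
  have hm : (P.p - 1) / 2 < P.p := by omega
  have hm2 : 2 * ((P.p - 1) / 2) < P.p := by omega
  have hm1 : 1 ≤ (P.p - 1) / 2 := by omega
  have hinj : Set.InjOn (fun k : ℕ => xc (k • P₁)) (Finset.Icc 1 ((P.p - 1) / 2) : Finset ℕ) := by
    intro k hk l hl hkl
    rw [Finset.coe_Icc, Set.mem_Icc] at hk hl
    rcases eq_or_eq_neg_of_xc_eq (hne k hk.1 (by omega)) (hne l hl.1 (by omega)) hkl with h | h
    · have h1 : ((k : ℤ) - (l : ℤ)) • P₁ = 0 := by
        rw [sub_smul, natCast_zsmul, natCast_zsmul, h, sub_self]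
      have h2 := (addOrderOf_dvd_iff_zsmul_eq_zero).2 h1
      rw [hord] at h2
      obtain ⟨c, hc⟩ := h2
      have hc0 : c = 0 := by
        by_contra hc0
        have hk' : (k : ℤ) < P.p := by omega
        have hl' : (l : ℤ) < P.p := by omega
        have hpos : (0 : ℤ) < P.p := by omega
        rcases lt_or_gt_of_ne hc0 with hneg | hpos'
        · have : (P.p : ℤ) * c ≤ (P.p : ℤ) * (-1) := by
            apply mul_le_mul_of_nonneg_left _ hpos.le
            omega
          omega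
        · have : (P.p : ℤ) * 1 ≤ (P.p : ℤ) * c := by
            apply mul_le_mul_of_nonneg_left _ hpos.le
            omega
          omega
      rw [hc0, mul_zero] at hc
      omega
    · exfalso
      have h1 : (k + l) • P₁ = 0 := by
        rw [add_smul, h, neg_add_cancel]
      exact hne (k + l) (by omega) (by omega) h1
  have hroot : ∀ s ∈ (Finset.Icc 1 ((P.p - 1) / 2)).image (fun k : ℕ => xc (k • P₁)),
      ((P.freyCurve⁄Kb).preΨ P.p).eval s = 0 ∧ s ∉ A := by
    intro s hs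
    obtain ⟨k, hk, rfl⟩ := Finset.mem_image.1 hs
    rw [Finset.mem_Icc] at hk
    have hk0 := hne k hk.1 (by omega)
    refine ⟨?_, (rp_nsmul P A (Or.inr hx) k).resolve_left hk0⟩
    apply eval_preΨ_of_torsion (P.freyCurve⁄Kb) (frey_b₆_Kb P) hpp hp2 hk0
    rw [smul_comm, hp, smul_zero]
  obtain ⟨c1, c2, c3, c4, c6⟩ := frey_coeff_mem P A
  have hmem := leadingCoeff_mul_prod_mem A _
    (coeff_preΨ_mem (P.freyCurve⁄Kb) A c1 c2 c3 c4 c6 (P.p : ℤ)) hroot
  rw [leadingCoeff_preΨ_prime (P.freyCurve⁄Kb) hpp hp2, Finset.prod_image hinj,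
    ← A.valuation_le_one_iff, map_mul, map_prod] at hmem
  obtain ⟨k₀, hk₀, hmin⟩ := Finset.exists_min_image (Finset.Icc 1 ((P.p - 1) / 2))
    (fun k : ℕ => A.valuation (xc (k • P₁))) ⟨1, Finset.mem_Icc.2 ⟨le_rfl, hm1⟩⟩
  rw [Finset.mem_Icc] at hk₀
  refine ⟨k₀, Nat.not_dvd_of_pos_of_lt (by omega) (by omega), le_trans ?_ hmem⟩
  have hpow := Finset.pow_card_le_prod (Finset.Icc 1 ((P.p - 1) / 2))
    (fun k : ℕ => A.valuation (xc (k • P₁))) (A.valuation (xc (k₀ • P₁))) hmin
  rw [Nat.card_Icc, Nat.add_sub_cancel] at hpow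
  exact mul_le_mul_right hpow _

end Fermat.Agent.LP.Frey
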