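import Fermat.Agent.LP.Frey.Defs

/-!
# LP-FREY (E1): values of the `p`-th division polynomial at 2-torsion abscissas; `E[p] ∩ E₁ ≠ 0`
-/

set_option autoImplicit false

namespace Fermat.Agent.LP.Frey

open WeierstrassCurve WeierstrassCurve.Affine WeierstrassCurve.Affine.Point Polynomial
open Fermat.Agent.S05 Fermat.Agent.S13

lemma prenorm_pos_aux {R : Type*} [CommRing R] (c d : R) (n : ℕ) (hn : Odd n) (hn3 : 3 ≤ n) :
    ∃ j : ℕ, 0 < j ∧ (preNormEDS' 0 c d n = c ^ j ∨ preNormEDS' 0 c d n = - c ^ j) := by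
  induction n using Nat.strong_induction_on with
  | _ n ih =>
    obtain ⟨k, rfl⟩ := hn
    rcases k with _ | _ | m
    · omega
    · exact ⟨1, one_pos, Or.inl (by simp)⟩
    · have e : 2 * (m + 1 + 1) + 1 = 2 * (m + 2) + 1 := rfl
      rw [e, preNormEDS'_odd]
      by_cases hm : Even m
      · obtain ⟨j₁, h₁⟩ := prenorm_aux c d (m + 1) hm.add_one
        obtain ⟨j₂, hj₂, h₂⟩ := ih (m + 3) (by omega) (by
          have : Odd (m + 1 + 2) := hm.add_one.add_even even_two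
          exact this) (by omega)
        refine ⟨j₁ + 3 * j₂, by omega, ?_⟩
        simp only [if_pos hm, mul_zero, mul_one, zero_sub]
        rcases h₁ with h₁ | h₁ <;> rcases h₂ with h₂ | h₂ <;> rw [h₁, h₂]
        · right; ring
        · left; ring
        · left; ring
        · right; ring
      · have hm' : Odd m := Nat.not_even_iff_odd.mp hm
        obtain ⟨j₁, h₁⟩ := prenorm_aux c d (m + 4) (hm'.add_even (by decide))
        obtain ⟨j₂, hj₂, h₂⟩ := ih (m + 2) (by omega) (hm'.add_even even_two)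
          (by obtain ⟨t, rfl⟩ := hm'; omega)
        refine ⟨j₁ + 3 * j₂, by omega, ?_⟩
        simp only [if_neg hm, mul_zero, mul_one, sub_zero]
        rcases h₁ with h₁ | h₁ <;> rcases h₂ with h₂ | h₂ <;> rw [h₁, h₂]
        · left; ring
        · right; ring
        · right; ring
        · left; ring

/-- refinement of `S13.preNormEDS_zero_odd`: the exponent is positive -/
theorem preNormEDS_zero_odd_pos {R : Type*} [CommRing R] (c d : R) (n : ℕ) (hn : Odd n)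
    (hn3 : 3 ≤ n) :
    ∃ j : ℕ, 0 < j ∧ (preNormEDS 0 c d n = c ^ j ∨ preNormEDS 0 c d n = - c ^ j) := by
  simpa only [preNormEDS_ofNat] using prenorm_pos_aux c d n hn hn3

/-- refinement of `S13.preNormEDS_zero_odd` (same induction): the exponent is positive -/
theorem dvd_preNormEDS_zero_odd {R : Type*} [CommRing R] (c d : R) (n : ℕ) (hn : Odd n)
    (hn3 : 3 ≤ n) : c ∣ preNormEDS 0 c d n := by
  obtain ⟨j, hj, h | h⟩ := preNormEDS_zero_odd_pos c d n hn hn3
  · rw [h]; exact dvd_pow_self c hj.ne'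
  · rw [h]; exact (dvd_pow_self c hj.ne').neg_right

variable {P : FreyPackage} {A : ValuationSubring Kb}

/-- `4 Ψ₃(e) + 4 c² = (12 e + b₂)(4e³ + b₂e² + 2b₄e + b₆)`, using `b_relation` -/
theorem eval_Ψ₃_node (N : NodeData P A) : (P.freyCurve⁄Kb).Ψ₃.eval N.e = - N.c ^ 2 := by
  have h40 : (4 : Kb) ≠ 0 := by norm_num
  have hrel := (P.freyCurve⁄Kb).b_relation
  have he := N.he
  have hc := N.hc
  rw [WeierstrassCurve.Ψ₃]
  simp only [eval_add, eval_mul, eval_C, eval_pow, eval_X, eval_ofNat]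
  apply mul_left_cancel₀ h40
  linear_combination (12 * N.e + (P.freyCurve⁄Kb).b₂) * he + hrel +
    (2 * N.c + (6 * N.e ^ 2 + (P.freyCurve⁄Kb).b₂ * N.e + (P.freyCurve⁄Kb).b₄)) * hc

lemma eval_Ψ₂Sq_node (N : NodeData P A) : (P.freyCurve⁄Kb).Ψ₂Sq.eval N.e = 0 := by
  rw [WeierstrassCurve.Ψ₂Sq]
  simp only [eval_add, eval_mul, eval_C, eval_pow, eval_X]
  exact N.he

theorem eval_preΨ_node_mem (N : NodeData P A) :
    ((P.freyCurve⁄Kb).preΨ P.p).eval N.e ∈ A.nonunits := by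
  have hp2 : P.p ≠ 2 := by have := P.hp5; omega
  have hc : A.valuation N.c < 1 := (A.mem_nonunits_iff).mp N.c_mem
  rw [ValuationSubring.mem_nonunits_iff, eval_preΨ_eq, eval_Ψ₂Sq_node, eval_Ψ₃_node,
    zero_pow two_ne_zero]
  obtain ⟨j, hj0, hj | hj⟩ := preNormEDS_zero_odd_pos (- N.c ^ 2)
    ((P.freyCurve⁄Kb).preΨ₄.eval N.e) P.p (P.pp.odd_of_ne_two hp2) (by have := P.hp5; omega)
  · rw [hj, map_pow, Valuation.map_neg, map_pow]
    exact pow_lt_one₀ zero_le (pow_lt_one₀ zero_le hc two_ne_zero) hj0.ne'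
  · rw [hj, Valuation.map_neg, map_pow, Valuation.map_neg, map_pow]
    exact pow_lt_one₀ zero_le (pow_lt_one₀ zero_le hc two_ne_zero) hj0.ne'

/-- as in the proof of `S13.exists_point_of_order` -/
theorem val_eval_preΨ_e' (N : NodeData P A) :
    A.valuation (((P.freyCurve⁄Kb).preΨ P.p).eval N.e') = 1 := by
  have hp2 : P.p ≠ 2 := by have := P.hp5; omega
  rw [eval_preΨ_eq, N.he']
  obtain ⟨j, hj | hj⟩ := preNormEDS_zero_odd ((P.freyCurve⁄Kb).Ψ₃.eval N.e')
    ((P.freyCurve⁄Kb).preΨ₄.eval N.e') P.p (P.pp.odd_of_ne_two hp2)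
  · rw [zero_pow two_ne_zero, hj, map_pow, N.he'3, one_pow]
  · rw [zero_pow two_ne_zero, hj, Valuation.map_neg, map_pow, N.he'3, one_pow]

/-- copy of the proof of `S13.exists_point_of_order`, keeping the information `s ∉ A` -/
theorem exists_e1 (N : NodeData P A) (hA : A.LiesOverPrime P.p) :
    ∃ P₁ : Pt P, P₁ ≠ 0 ∧ P.p • P₁ = 0 ∧ xc P₁ ∉ A := by
  obtain ⟨h₁, h₂, h₃, h₄, h₆⟩ := frey_coeff_mem P A
  have hp2 : P.p ≠ 2 := by have := P.hp5; omega
  have hp3 : 3 ≤ P.p := by have := P.hp5; omega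
  have hunit : ∀ k : ℕ, 1 ≤ k → k < P.p → A.valuation (k : Kb) = 1 := by
    intro k hk1 hkp
    exact freyP_val_natCast A P.pp hA (Nat.not_dvd_of_pos_of_lt hk1 hkp)
  have hb6 := frey_b₆_Kb P
  obtain ⟨s, hs0, hsA⟩ := exists_root_not_mem A (g := (P.freyCurve⁄Kb).preΨ P.p)
    (by rw [leadingCoeff_preΨ_prime _ P.pp hp2]; exact hA) N.e'_mem
    (by rw [ValuationSubring.mem_nonunits_iff, val_eval_preΨ_e' N]; exact lt_irrefl _)
  obtain ⟨Q, hQ, hxQ⟩ := exists_point_of_xc (P.freyCurve⁄Kb) two_ne_zero (frey_Δ_Kb_ne_zero P) s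
  refine ⟨Q, hQ, ?_, by rw [hxQ]; exact hsA⟩
  obtain ⟨k, hk1, hkp, hk⟩ := exists_nsmul_eq_zero_of_eval_preΨ (P.freyCurve⁄Kb) two_ne_zero hb6
    Q hQ P.p (by omega) (by rw [hxQ]; exact hs0)
  have hdvd : addOrderOf Q ∣ k := addOrderOf_dvd_of_nsmul_eq_zero hk
  have hle : addOrderOf Q ≤ k := Nat.le_of_dvd (by omega) hdvd
  have hpos : 0 < addOrderOf Q := Nat.pos_of_dvd_of_pos hdvd (by omega)
  have hne1 : addOrderOf Q ≠ 1 := fun h => hQ (AddMonoid.addOrderOf_eq_one_iff.mp h)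
  rcases Nat.lt_or_ge (addOrderOf Q) P.p with hlt | hge
  · exfalso
    apply hsA
    rw [← hxQ]
    apply xc_mem_of_order (P.freyCurve⁄Kb) hb6 A h₁ h₂ h₃ h₄ h₆ Q (addOrderOf Q) (by omega)
      (fun k hk1 hk2 => hunit k hk1 (by omega))
    · exact freyP_val_four P A hA
    · intro k hk1 hk2
      exact nsmul_ne_zero_of_lt_addOrderOf (by omega) hk2
    · exact addOrderOf_nsmul_eq_zero Q
  · have : addOrderOf Q = P.p := by omega
    rw [← this]
    exact addOrderOf_nsmul_eq_zero Q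

end Fermat.Agent.LP.Frey
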