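import Fermat.Agent.LP.Frey.Indep
import Fermat.Agent.LP.Frey.EvalPsi

/-!
# LP-FREY (E2): `E[p] ∩ E₁` is cyclic
-/

set_option autoImplicit false

namespace Fermat.Agent.LP.Frey

open WeierstrassCurve WeierstrassCurve.Affine WeierstrassCurve.Affine.Point Polynomial
open Fermat.Agent.S05 Fermat.Agent.S13

variable {P : FreyPackage} {A : ValuationSubring Kb}

/-- the valuation of `c ∏ (a - s)`, all `s ∉ A`, does not depend on `a ∈ A` -/
theorem EOneCyc_val_eval (S : Finset Kb) (hS : ∀ s ∈ S, s ∉ A) (c : Kb) {a : Kb} (ha : a ∈ A) :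
    A.valuation ((C c * ∏ s ∈ S, (X - C s)).eval a) = A.valuation c * ∏ s ∈ S, A.valuation s := by
  rw [eval_mul, eval_C, eval_prod, map_mul, map_prod]
  congr 1
  refine Finset.prod_congr rfl fun s hs => ?_
  rw [eval_sub, eval_X, eval_C]
  apply Valuation.map_sub_eq_of_lt_right
  have h1 : A.valuation a ≤ 1 := (A.valuation_le_one_iff a).2 ha
  have h2 : 1 < A.valuation s := by
    rw [← not_le, A.valuation_le_one_iff]
    exact hS s hs
  exact lt_of_le_of_lt h1 h2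

/-- PROOF. Otherwise `P₁, P₂` are independent, so (`Indep`) `#E[p] = p²` and every point of `E[p]`
is `i • P₁ + j • P₂`, hence `0` or non-integral (`S13.frey_E1_add`, `S13.rp_nsmul`).  By
`S13.preΨ_eq_prod`, `preΨ p = p ∏_{s ∈ S} (X - s)` with all `s ∉ A`, so
`preΨ p (e) / preΨ p (e') = ∏ (1 - e/s)/(1 - e'/s)` has valuation `1`, contradicting
`eval_preΨ_node_mem` and `val_eval_preΨ_e'`. -/
theorem e1_cyclic (N : NodeData P A) {P₁ P₂ : Pt P} (h0 : P₁ ≠ 0) (h1 : P.p • P₁ = 0)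
    (hx1 : xc P₁ ∉ A) (h2 : P.p • P₂ = 0) (hx2 : xc P₂ ∉ A) : ∃ k : ℕ, P₂ = k • P₁ := by
  classical
  by_contra hcon
  push Not at hcon
  have hp2 : P.p ≠ 2 := by have := P.hp5; omega
  have hcard := ncard_of_indep h1 h2 hcon h0
  have hfin : {Q : Pt P | P.p • Q = 0}.Finite := by
    apply Set.finite_of_ncard_ne_zero
    rw [hcard]
    exact pow_ne_zero _ P.pp.ne_zero
  set S : Finset Kb := (hfin.toFinset.erase 0).image xc with hSdef
  have hS : ∀ s, s ∈ S ↔ ∃ Q : Pt P, Q ≠ 0 ∧ P.p • Q = 0 ∧ xc Q = s := by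
    intro s
    rw [hSdef, Finset.mem_image]
    constructor
    · rintro ⟨Q, hQ, rfl⟩
      rw [Finset.mem_erase, Set.Finite.mem_toFinset] at hQ
      exact ⟨Q, hQ.1, hQ.2, rfl⟩
    · rintro ⟨Q, hQ0, hQ, rfl⟩
      exact ⟨Q, by rw [Finset.mem_erase, Set.Finite.mem_toFinset]; exact ⟨hQ0, hQ⟩, rfl⟩
  have hprod := preΨ_eq_prod (P.freyCurve⁄Kb) (frey_b₆_Kb P) P.pp hp2 hcard S hS
  have hSA : ∀ s ∈ S, s ∉ A := by
    intro s hs
    obtain ⟨Q, hQ0, hQ, rfl⟩ := (hS s).1 hs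
    obtain ⟨i, j, rfl⟩ := exists_eq_add_of_indep h1 h2 hcon h0 hQ
    exact (frey_E1_add P A (rp_nsmul P A (Or.inr hx1) i) (rp_nsmul P A (Or.inr hx2) j)).resolve_left
      hQ0
  have he := eval_preΨ_node_mem N
  have he' := val_eval_preΨ_e' N
  rw [ValuationSubring.mem_nonunits_iff, hprod, EOneCyc_val_eval S hSA _ N.e_mem] at he
  rw [hprod, EOneCyc_val_eval S hSA _ N.e'_mem] at he'
  rw [he'] at he
  exact lt_irrefl _ he

end Fermat.Agent.LP.Frey
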