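import Fermat.Agent.LP.Frey.Indep
import Fermat.Agent.LP.Frey.EvalPsi

/-!
# LP-FREY (F): inertia acts trivially on `E[p] / (E[p] ∩ E₁)`
-/

set_option autoImplicit false

namespace Fermat.Agent.LP.Frey

open WeierstrassCurve WeierstrassCurve.Affine WeierstrassCurve.Affine.Point
open Fermat.Agent.S05 Fermat.Agent.S13

variable {P : FreyPackage} {A : ValuationSubring Kb}

/-- PROOF. Take `V₀` from `S13.frey_local_p` and `P₁` from `exists_e1`; `R := σ • Q - Q ∈ V₀`,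
`p • R = 0`.  If `Q ∈ V₀` use the second clause.  Otherwise `R` is a multiple of `P₁` (so we are
done by `S13.rp_nsmul`): if not, `Q = i • P₁ + j • R ∈ V₀` by `exists_eq_add_of_indep`. -/
theorem inertia_sub_mem_E1 (N : NodeData P A) (hA : A.LiesOverPrime P.p) {σ : GalQ}
    (hσ : σ ∈ A.inertiaSubgroupIn ℚ) {Q : Pt P} (hQ : P.p • Q = 0) :
    σ • Q - Q = 0 ∨ xc (σ • Q - Q) ∉ A := by
  obtain ⟨V₀, hV, hin⟩ := frey_local_p P A hA
  obtain ⟨P₁, hP0, hP1, hxP⟩ := exists_e1 N hA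
  obtain ⟨hR, hcl⟩ := hin σ hσ Q hQ
  by_cases hQV : Q ∈ V₀
  · exact hcl hQV
  · have hpR : P.p • (σ • Q - Q) = 0 := by
      rw [nsmul_sub, hQ, sub_zero, smul_comm, hQ]
      exact smul_zero (A := Pt P) σ
    by_cases hind : ∀ k : ℕ, σ • Q - Q ≠ k • P₁
    · exfalso
      obtain ⟨i, j, hij⟩ := exists_eq_add_of_indep hP1 hpR hind hP0 hQ
      apply hQV
      rw [hij]
      exact add_mem (nsmul_mem (hV P₁ hxP) i) (nsmul_mem hR j)
    · push Not at hind
      obtain ⟨k, hk⟩ := hind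
      rw [hk]
      exact rp_nsmul P A (Or.inr hxP) k

end Fermat.Agent.LP.Frey
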