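import Fermat.Agent.S55.DIC.Unram2

/-!
# LP-FREY (U): the fixed field of the inertia group is unramified

If `c ∈ ℚ̄ˣ` is fixed by the inertia group of `A ∣ q` then `v(c) ∈ ℤ v(q)`.
-/

set_option autoImplicit false

open NumberField IsDedekindDomain

namespace Fermat.Agent.LP.Frey

open Fermat.Agent.S55.DIC

theorem val_eq_zpow_of_inertia_fixed {q : ℕ} (hq : q.Prime) (A : ValuationSubring Qb)
    (hA : A.LiesOverPrime q) (c : Qb) (hc0 : c ≠ 0)
    (hfix : ∀ σ ∈ A.inertiaSubgroupIn ℚ, σ c = c) :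
    ∃ k : ℤ, A.valuation c = A.valuation (q : Qb) ^ k := by
  have hint : IsIntegral ℚ c := ((AlgebraicClosure.isAlgebraic ℚ).isAlgebraic c).isIntegral
  let L : IntermediateField ℚ Qb := IntermediateField.adjoin ℚ {c}
  have : FiniteDimensional ℚ L := IntermediateField.adjoin.finiteDimensional hint
  have : NumberField L := { to_charZero := inferInstance, to_finiteDimensional := inferInstance }
  obtain ⟨v, -, hv⟩ := exists_place_below L A hq hA
  have hle : A.inertiaSubgroupIn ℚ ≤ L.fixingSubgroup := by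
    rw [← IntermediateField.le_iff_le, IntermediateField.adjoin_simple_le_iff,
      IntermediateField.mem_fixedField_iff]
    exact hfix
  have hord : ord v ((q : ℕ) : L) = 1 := (inertia_le_fixingSubgroup_iff L A hq hA v hv).1 hle
  let c' : L := ⟨c, IntermediateField.mem_adjoin_simple_self ℚ c⟩
  have hc'0 : c' ≠ 0 := fun h => hc0 (congrArg Subtype.val h)
  have hq0 : ((q : ℕ) : L) ≠ 0 := Nat.cast_ne_zero.2 hq.ne_zero
  refine ⟨ord v c', ?_⟩
  set k := ord v c' with hk
  set x : L := c' * (((q : ℕ) : L) ^ k)⁻¹ with hx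
  have hx0 : x ≠ 0 := mul_ne_zero hc'0 (inv_ne_zero (zpow_ne_zero _ hq0))
  have hordx : ord v x = 0 := by
    rw [hx, ord_mul v hc'0 (inv_ne_zero (zpow_ne_zero _ hq0)), ord_inv, ord_zpow, hord, ← hk]
    ring
  have h1 : (x : Qb) ∈ A := (hv x hx0).2 hordx.ge
  have h2 : ((x⁻¹ : L) : Qb) ∈ A := (hv x⁻¹ (inv_ne_zero hx0)).2 (by rw [ord_inv, hordx]; simp)
  have hxv : A.valuation (x : Qb) = 1 := by
    apply le_antisymm ((A.valuation_le_one_iff _).mpr h1)
    have h3 := (A.valuation_le_one_iff _).mpr h2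
    have h4 : ((x⁻¹ : L) : Qb) = (x : Qb)⁻¹ := by push_cast; rfl
    rw [h4, map_inv₀] at h3
    have hx0' : A.valuation (x : Qb) ≠ 0 := by
      rw [ne_eq, map_eq_zero]; exact_mod_cast hx0
    exact (inv_le_one₀ (zero_lt_iff.mpr hx0')).mp h3
  have hxc : (x : Qb) = c * ((q : Qb) ^ k)⁻¹ := by
    rw [hx]; push_cast; rfl
  rw [hxc, map_mul, map_inv₀, map_zpow₀] at hxv
  have hq0' : A.valuation (q : Qb) ^ k ≠ 0 := by
    apply zpow_ne_zero
    rw [ne_eq, map_eq_zero]; exact_mod_cast hq.ne_zero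
  exact (mul_inv_eq_one₀ hq0').mp hxv

end Fermat.Agent.LP.Frey
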