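import Fermat.Agent.LP.Frey.Main
import Fermat.Agent.LP.Frey.Unram

/-!
# LP-FREY: final exports (no hypothesis on the fixed field of the inertia group)
-/

set_option autoImplicit false

namespace Fermat.Agent.LP.Frey

open WeierstrassCurve WeierstrassCurve.Affine WeierstrassCurve.Affine.Point
open Fermat.Agent.S05 Fermat.Agent.S13

/-- **(PEU)**, final form: `y ^ p` fixed by the inertia group at `A ∣ p`, `y` fixed by the inertia
elements acting trivially on `μ_p` and `E[p]` ⟹ `v(y) ∈ ℤ v(p)`. -/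
theorem frey_peu_final (P : FreyPackage) (hpabc : (P.p : ℤ) ∣ P.a * P.b * P.c)
    (A : ValuationSubring Kb) (hA : A.LiesOverPrime P.p)
    {ζ : Kb} (hζ : IsPrimitiveRoot ζ P.p) {y : Kb} (hy0 : y ≠ 0)
    (hyp : ∀ σ ∈ A.inertiaSubgroupIn ℚ, σ (y ^ P.p) = y ^ P.p)
    (hyE : ∀ σ ∈ A.inertiaSubgroupIn ℚ, σ ζ = ζ →
      (∀ Q : Pt P, P.p • Q = 0 → σ • Q = Q) → σ y = y) :
    ∃ k : ℤ, A.valuation y = A.valuation (P.p : Kb) ^ k :=
  frey_peu_of_unram P hpabc A hA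
    (fun c hc0 hfix => val_eq_zpow_of_inertia_fixed P.pp A hA c hc0 hfix) hζ hy0 hyp hyE

/-- the same without `ζ`: `y` is fixed by the inertia elements acting trivially on `E[p]`. -/
theorem frey_peu_final' (P : FreyPackage) (hpabc : (P.p : ℤ) ∣ P.a * P.b * P.c)
    (A : ValuationSubring Kb) (hA : A.LiesOverPrime P.p) {y : Kb} (hy0 : y ≠ 0)
    (hyp : ∀ σ ∈ A.inertiaSubgroupIn ℚ, σ (y ^ P.p) = y ^ P.p)
    (hyE : ∀ σ ∈ A.inertiaSubgroupIn ℚ, (∀ Q : Pt P, P.p • Q = 0 → σ • Q = Q) → σ y = y) :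
    ∃ k : ℤ, A.valuation y = A.valuation (P.p : Kb) ^ k := by
  have : NeZero ((P.p : ℕ) : Kb) := ⟨by exact_mod_cast P.pp.ne_zero⟩
  obtain ⟨ζ, hζ⟩ := HasEnoughRootsOfUnity.exists_primitiveRoot Kb P.p
  exact frey_peu_final P hpabc A hA hζ hy0 hyp (fun σ hσ _ h => hyE σ hσ h)

/-- STEP 7 of the blueprint of LP: `η ∈ L₀ˣ`, `η ^ (1/p) ∈ L₀(E[p])` ⟹ `p ∣ v(η)`. -/
theorem frey_peu_eta (P : FreyPackage) (hpabc : (P.p : ℤ) ∣ P.a * P.b * P.c)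
    (A : ValuationSubring Kb) (hA : A.LiesOverPrime P.p) {η y : Kb} (hη0 : η ≠ 0)
    (hyη : y ^ P.p = η) (hη : ∀ σ ∈ A.inertiaSubgroupIn ℚ, σ η = η)
    (hyE : ∀ σ ∈ A.inertiaSubgroupIn ℚ, (∀ Q : Pt P, P.p • Q = 0 → σ • Q = Q) → σ y = y) :
    ∃ k : ℤ, A.valuation η = A.valuation (P.p : Kb) ^ ((P.p : ℤ) * k) := by
  have hy0 : y ≠ 0 := by
    rintro rfl
    rw [zero_pow P.pp.ne_zero] at hyη
    exact hη0 hyη.symm
  obtain ⟨k, hk⟩ := frey_peu_final' P hpabc A hA hy0 (by rw [hyη]; exact hη) hyE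
  refine ⟨k, ?_⟩
  rw [← hyη, map_pow, hk, mul_comm, zpow_mul, zpow_natCast]

end Fermat.Agent.LP.Frey
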