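import Fermat.Agent.LP.Frey.Defs

/-!
# LP-FREY (I): two independent points generate `E[p]`  (only `#E[p] ≤ p²` is used)
-/

set_option autoImplicit false

namespace Fermat.Agent.LP.Frey

open WeierstrassCurve WeierstrassCurve.Affine WeierstrassCurve.Affine.Point
open Fermat.Agent.S05 Fermat.Agent.S13

variable {P : FreyPackage}

/-- an integer multiple of a `p`-torsion point is a natural multiple. -/
theorem Indep_zsmul_eq_nsmul {G : Type*} [AddCommGroup G] {p : ℕ} (hp : p ≠ 0) {x : G}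
    (hx : p • x = 0) (n : ℤ) : ∃ k : ℕ, n • x = k • x := by
  refine ⟨(n % p).toNat, ?_⟩
  have hp0 : (p : ℤ) ≠ 0 := by exact_mod_cast hp
  have h2 : (((n % p).toNat : ℕ) : ℤ) = n % p := Int.toNat_of_nonneg (Int.emod_nonneg n hp0)
  rw [← natCast_zsmul, h2]
  conv_lhs => rw [← Int.emod_add_mul_ediv n p]
  rw [add_zsmul, mul_comm, mul_zsmul, natCast_zsmul, hx, smul_zero, add_zero]

/-- Bezout. -/
theorem Indep_eq_of_not_dvd {G : Type*} [AddCommGroup G] {p : ℕ} (hp : p.Prime) {x y : G}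
    (hx : p • x = 0) {n : ℤ} (hn : ¬ (p : ℤ) ∣ n) (h : n • x = y) : ∃ u : ℤ, x = u • y := by
  have hcop : IsCoprime n (p : ℤ) :=
    ((Nat.prime_iff_prime_int.1 hp).coprime_iff_not_dvd.2 hn).symm
  obtain ⟨u, v, huv⟩ := hcop
  refine ⟨u, ?_⟩
  rw [← h, ← mul_zsmul]
  have h1 : x = (u * n + v * p) • x := by rw [huv, one_zsmul]
  conv_lhs => rw [h1]
  rw [add_zsmul, mul_smul v, natCast_zsmul, hx, smul_zero, add_zero]

theorem Indep_eq_of_dvd_sub {p : ℕ} {i j : Fin p} (h : (p : ℤ) ∣ ((i : ℕ) : ℤ) - ((j : ℕ) : ℤ)) :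
    i = j := by
  have hi := i.2
  have hj := j.2
  obtain ⟨c, hc⟩ := h
  apply Fin.ext
  have hc0 : c = 0 := by
    by_contra hne
    rcases lt_or_gt_of_ne hne with hlt | hgt
    · have : (p : ℤ) * c ≤ (p : ℤ) * (-1) :=
        mul_le_mul_of_nonneg_left (by omega) (by omega)
      omega
    · have : (p : ℤ) * 1 ≤ (p : ℤ) * c :=
        mul_le_mul_of_nonneg_left (by omega) (by omega)
      omega
  rw [hc0, mul_zero] at hc
  omega

theorem Indep_injective {G : Type*} [AddCommGroup G] {p : ℕ} (hp : p.Prime) {P₁ R : G}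
    (h1 : p • P₁ = 0) (hR : p • R = 0) (hind : ∀ k : ℕ, R ≠ k • P₁) (h0 : P₁ ≠ 0) :
    Function.Injective (fun ij : Fin p × Fin p => (ij.1 : ℕ) • P₁ + (ij.2 : ℕ) • R) := by
  rintro ⟨i, j⟩ ⟨i', j'⟩ h
  simp only at h
  have e : (((j : ℕ) : ℤ) - ((j' : ℕ) : ℤ)) • R = (((i' : ℕ) : ℤ) - ((i : ℕ) : ℤ)) • P₁ := by
    rw [sub_smul, sub_smul, natCast_zsmul, natCast_zsmul, natCast_zsmul, natCast_zsmul,
      sub_eq_sub_iff_add_eq_add, add_comm, h]
  have hj : j = j' := by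
    apply Indep_eq_of_dvd_sub
    by_contra hn
    obtain ⟨u, hu⟩ := Indep_eq_of_not_dvd hp hR hn e
    rw [← mul_zsmul] at hu
    obtain ⟨k, hk⟩ := Indep_zsmul_eq_nsmul hp.ne_zero h1 (u * (((i' : ℕ) : ℤ) - ((i : ℕ) : ℤ)))
    exact hind k (hu.trans hk)
  subst hj
  rw [sub_self, zero_zsmul] at e
  have hi : i' = i := by
    apply Indep_eq_of_dvd_sub
    by_contra hn
    obtain ⟨u, hu⟩ := Indep_eq_of_not_dvd hp h1 hn e.symm
    rw [smul_zero] at hu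
    exact h0 hu
  rw [hi]

theorem Indep_main {G : Type*} [AddCommGroup G] {p : ℕ} (hp : p.Prime)
    (hfin : {Q : G | p • Q = 0}.Finite) (hcard : {Q : G | p • Q = 0}.ncard ≤ p ^ 2) {P₁ R : G}
    (h1 : p • P₁ = 0) (hR : p • R = 0) (hind : ∀ k : ℕ, R ≠ k • P₁) (h0 : P₁ ≠ 0) :
    Set.range (fun ij : Fin p × Fin p => (ij.1 : ℕ) • P₁ + (ij.2 : ℕ) • R) = {Q : G | p • Q = 0} ∧
      {Q : G | p • Q = 0}.ncard = p ^ 2 := by
  have hinj := Indep_injective hp h1 hR hind h0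
  have hsub : Set.range (fun ij : Fin p × Fin p => (ij.1 : ℕ) • P₁ + (ij.2 : ℕ) • R) ⊆
      {Q : G | p • Q = 0} := by
    rintro _ ⟨⟨i, j⟩, rfl⟩
    change p • ((i : ℕ) • P₁ + (j : ℕ) • R) = 0
    rw [smul_add, smul_comm, h1, smul_comm, hR, smul_zero, smul_zero, add_zero]
  have hc : (Set.range (fun ij : Fin p × Fin p => (ij.1 : ℕ) • P₁ + (ij.2 : ℕ) • R)).ncard =
      p ^ 2 := by
    rw [← Set.image_univ, Set.ncard_image_of_injective _ hinj, Set.ncard_univ, Nat.card_prod,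
      Nat.card_eq_fintype_card, Fintype.card_fin, sq]
  have heq := Set.eq_of_subset_of_ncard_le hsub (by rw [hc]; exact hcard) hfin
  exact ⟨heq, by rw [← heq, hc]⟩

/-- PROOF. The map `(i, j) ↦ i • P₁ + j • R` on `Fin p × Fin p` (or `ZMod p × ZMod p`) is
injective into the set `{Q | p • Q = 0}`, which has at most `p ^ 2` elements
(`S13.frey_card_le` / `S13.card_torsion_le`); so it is surjective. -/
theorem exists_eq_add_of_indep {P₁ R : Pt P} (h1 : P.p • P₁ = 0) (hR : P.p • R = 0)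
    (hind : ∀ k : ℕ, R ≠ k • P₁) (h0 : P₁ ≠ 0) {Q : Pt P} (hQ : P.p • Q = 0) :
    ∃ i j : ℕ, Q = i • P₁ + j • R := by
  obtain ⟨hf, hc⟩ := card_torsion_le (P.freyCurve⁄Kb) (frey_b₆_Kb P) P.pp (rp_p_ne_two P)
  have h := (Indep_main P.pp hf hc h1 hR hind h0).1
  have hQ' : Q ∈ {Q : Pt P | P.p • Q = 0} := hQ
  rw [← h] at hQ'
  obtain ⟨⟨i, j⟩, hij⟩ := hQ'
  exact ⟨i, j, hij.symm⟩

theorem ncard_of_indep {P₁ R : Pt P} (h1 : P.p • P₁ = 0) (hR : P.p • R = 0)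
    (hind : ∀ k : ℕ, R ≠ k • P₁) (h0 : P₁ ≠ 0) :
    {Q : Pt P | P.p • Q = 0}.ncard = P.p ^ 2 := by
  obtain ⟨hf, hc⟩ := card_torsion_le (P.freyCurve⁄Kb) (frey_b₆_Kb P) P.pp (rp_p_ne_two P)
  exact (Indep_main P.pp hf hc h1 hR hind h0).2

end Fermat.Agent.LP.Frey
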