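import Mathlib

/-!
# LP-FREY (K): the abstract Kummer criterion

`F ⊆ K` fields, `w` a valuation of `K`, `y ∈ K` with `y ^ p ∈ F` and `w y ∉ w (F ˣ)`.
Then the valuations `w (a i * y ^ i)` (`i < p`, `a i ∈ F`, `a i ≠ 0`) are pairwise distinct, so
`w (∑ a i y ^ i) = max`.  If moreover `w (∑ a i y ^ i) ∈ w (F ˣ)` the maximum is attained at
`i = 0` only, hence `∑ a i (ζ ^ i - 1) y ^ i` is strictly smaller than `w T * w (ζ - 1)`.
-/

set_option autoImplicit false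

namespace Fermat.Agent.LP.Frey

open Finset

section strict

variable {K Γ : Type*} [Field K] [LinearOrderedCommGroupWithZero Γ] (w : Valuation K Γ)

/-- step (1): `w (y ^ i)` is not the valuation of an element of `F` for `0 < i < p`. -/
theorem Kummer_pow_ne (F : Subfield K) {p : ℕ} (hp : p.Prime) {y : K}
    (hy0 : y ≠ 0) (hyp : y ^ p ∈ F) (hyF : ∀ c ∈ F, c ≠ 0 → w y ≠ w c) {i : ℕ} (hi0 : 0 < i)
    (hip : i < p) : ∀ c ∈ F, c ≠ 0 → w (y ^ i) ≠ w c := by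
  intro c hc hc0 h
  have hcop : Nat.Coprime i p :=
    ((Nat.Prime.coprime_iff_not_dvd hp).2 (Nat.not_dvd_of_pos_of_lt hi0 hip)).symm
  have hbez : (i : ℤ) * Nat.gcdA i p + (p : ℤ) * Nat.gcdB i p = 1 := by
    have := Nat.gcd_eq_gcd_ab i p
    rw [hcop.gcd_eq_one] at this
    exact_mod_cast this.symm
  refine hyF (c ^ (Nat.gcdA i p) * (y ^ p) ^ (Nat.gcdB i p))
    (mul_mem (zpow_mem hc _) (zpow_mem hyp _))
    (mul_ne_zero (zpow_ne_zero _ hc0) (zpow_ne_zero _ (pow_ne_zero p hy0))) ?_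
  have e1 : y = (y ^ i) ^ (Nat.gcdA i p) * (y ^ p) ^ (Nat.gcdB i p) := by
    rw [← zpow_natCast y i, ← zpow_natCast y p, ← zpow_mul, ← zpow_mul, ← zpow_add₀ hy0, hbez,
      zpow_one]
  calc w y = w ((y ^ i) ^ (Nat.gcdA i p) * (y ^ p) ^ (Nat.gcdB i p)) := by rw [← e1]
    _ = w (c ^ (Nat.gcdA i p) * (y ^ p) ^ (Nat.gcdB i p)) := by
        rw [map_mul, map_mul, map_zpow₀, map_zpow₀ w c, h]

/-- step (2): the nonzero terms have pairwise distinct valuations. -/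
theorem Kummer_term_ne (F : Subfield K) {p : ℕ} (hp : p.Prime) {y : K}
    (hy0 : y ≠ 0) (hyp : y ^ p ∈ F) (hyF : ∀ c ∈ F, c ≠ 0 → w y ≠ w c)
    (a : ℕ → K) (ha : ∀ i, a i ∈ F) {i j : ℕ} (hij : i < j) (hjp : j < p) (hi : a i ≠ 0)
    (hj : a j ≠ 0) : w (a i * y ^ i) ≠ w (a j * y ^ j) := by
  intro h
  refine Kummer_pow_ne w F hp hy0 hyp hyF (i := j - i) (by omega) (by omega) (a i / a j)
    (div_mem (ha i) (ha j)) (div_ne_zero hi hj) ?_
  have hwj : w (a j) ≠ 0 := (Valuation.ne_zero_iff _).2 hj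
  have hwy : w (y ^ i) ≠ 0 := (Valuation.ne_zero_iff _).2 (pow_ne_zero i hy0)
  have e1 : y ^ j = y ^ (j - i) * y ^ i := by
    rw [← pow_add]
    congr 1
    omega
  rw [e1, map_mul, map_mul, map_mul, ← mul_assoc] at h
  have h2 := mul_right_cancel₀ hwy h
  rw [map_div₀, h2, mul_div_cancel_left₀ _ hwj]

/-- PROOF. Put `t i = a i * y ^ i`.  (1) if `0 < i < p` then `w (y ^ i) ≠ w c` for all `c ∈ F`,
`c ≠ 0` (Bezout `u i + v p = 1`, `y = (y ^ i) ^ u (y ^ p) ^ v` with integer exponents).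
(2) hence for `i < j < p` with `t i ≠ 0 ≠ t j`: `w (t i) ≠ w (t j)` (else `w (y ^ (j - i))` is the
valuation of `a i / a j`).  (3) so `w (∑ t i) = max w (t i)` (`Valuation.map_sum_eq_of_lt` or
induction), attained at a unique `i₀`; `w (t i₀) = w c₀` forces `i₀ = 0` by (1).
(4) every `i ≥ 1` has `w (t i) < w c₀`; `∑ a i ζ ^ i y ^ i - ∑ a i y ^ i = ∑ (ζ ^ i - 1) t i`, the
term `i = 0` vanishes; use `Valuation.map_sum_lt` (the bound `w c₀ * w (ζ - 1)` is nonzero). -/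
theorem kummer_strict (F : Subfield K) {p : ℕ} (hp : p.Prime) {ζ y : K} (hζ1 : ζ ≠ 1)
    (hζw : ∀ i : ℕ, w (ζ ^ i - 1) ≤ w (ζ - 1))
    (hy0 : y ≠ 0) (hyp : y ^ p ∈ F) (hyF : ∀ c ∈ F, c ≠ 0 → w y ≠ w c)
    (a : ℕ → K) (ha : ∀ i, a i ∈ F) {c₀ : K} (hc₀ : c₀ ∈ F) (hc₀0 : c₀ ≠ 0)
    (hT : w (∑ i ∈ range p, a i * y ^ i) = w c₀) :
    w (∑ i ∈ range p, a i * (ζ ^ i * y ^ i) - ∑ i ∈ range p, a i * y ^ i) <
      w c₀ * w (ζ - 1) := by
  have hwc : w c₀ ≠ 0 := (Valuation.ne_zero_iff _).2 hc₀0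
  have hwζ : w (ζ - 1) ≠ 0 := (Valuation.ne_zero_iff _).2 (sub_ne_zero.2 hζ1)
  -- the maximal term
  obtain ⟨i₀, hi₀, hmax⟩ := (range p).exists_max_image (fun i => w (a i * y ^ i))
    ⟨0, mem_range.2 hp.pos⟩
  have hi₀p : i₀ < p := mem_range.1 hi₀
  have ht₀ : a i₀ * y ^ i₀ ≠ 0 := by
    intro h0
    apply hwc
    rw [← hT]
    have : ∑ i ∈ range p, a i * y ^ i = 0 := by
      refine sum_eq_zero fun i hi => ?_
      have h1 := hmax i hi
      simp only [h0, map_zero, le_zero_iff] at h1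
      exact (Valuation.zero_iff _).1 h1
    rw [this, map_zero]
  have ha₀ : a i₀ ≠ 0 := left_ne_zero_of_mul ht₀
  have hlt : ∀ i ∈ range p \ {i₀}, w (a i * y ^ i) < w (a i₀ * y ^ i₀) := by
    intro i hi
    rw [mem_sdiff, mem_singleton] at hi
    obtain ⟨hi, hne⟩ := hi
    have hip : i < p := mem_range.1 hi
    by_cases hai : a i = 0
    · rw [hai, zero_mul, map_zero]
      exact zero_lt_iff.2 ((Valuation.ne_zero_iff _).2 ht₀)
    · refine lt_of_le_of_ne (hmax i hi) ?_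
      rcases lt_or_gt_of_ne hne with h | h
      · exact Kummer_term_ne w F hp hy0 hyp hyF a ha h hi₀p hai ha₀
      · exact (Kummer_term_ne w F hp hy0 hyp hyF a ha h hip ha₀ hai).symm
  have hsum := Valuation.map_sum_eq_of_lt w hi₀ hlt
  rw [hT] at hsum
  -- the maximum is attained at `0`
  have hi₀0 : i₀ = 0 := by
    by_contra hne
    refine Kummer_pow_ne w F hp hy0 hyp hyF (Nat.pos_of_ne_zero hne) hi₀p (c₀ / a i₀)
      (div_mem hc₀ (ha i₀)) (div_ne_zero hc₀0 ha₀) ?_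
    rw [map_div₀, hsum, map_mul, mul_div_cancel_left₀ _ ((Valuation.ne_zero_iff _).2 ha₀)]
  have hsmall : ∀ i ∈ range p, i ≠ 0 → w (a i * y ^ i) < w c₀ := by
    intro i hi hne
    rw [hsum]
    apply hlt
    rw [mem_sdiff, mem_singleton, hi₀0]
    exact ⟨hi, hne⟩
  -- conclusion
  have e1 : ∑ i ∈ range p, a i * (ζ ^ i * y ^ i) - ∑ i ∈ range p, a i * y ^ i =
      ∑ i ∈ range p, (ζ ^ i - 1) * (a i * y ^ i) := by
    rw [← sum_sub_distrib]
    exact sum_congr rfl fun i _ => by ring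
  rw [e1]
  refine Valuation.map_sum_lt w (mul_ne_zero hwc hwζ) fun i hi => ?_
  by_cases hi0 : i = 0
  · rw [hi0, pow_zero, sub_self, zero_mul, map_zero]
    exact zero_lt_iff.2 (mul_ne_zero hwc hwζ)
  · rw [map_mul, mul_comm (w c₀)]
    exact mul_lt_mul_of_le_of_lt_of_nonneg_of_pos (hζw i) (hsmall i hi hi0) zero_le
      (zero_lt_iff.2 hwζ)

end strict

end Fermat.Agent.LP.Frey
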