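import Mathlib

/-!
# LP-FREY (N1): an abstract norm argument
-/

set_option autoImplicit false

namespace Fermat.Agent.LP.Frey

/-- PROOF. `O := MulAction.orbit G c₀` (finite), `c := ∏_{z ∈ O} z`, `m := #O`.  `c` is `G`-fixed
(`g` permutes `O`), `c ≠ 0`, `w c = w c₀ ^ m` by `hw`.  `p ∤ m`: `m = (stabilizer G c₀).index`
(`MulAction.index_stabilizer`), `H ≤ stabilizer`, so `H ≤ C := (stabilizer G c₀).normalCore`
(`Subgroup.normal_le_normalCore`), `C` has finite index and `m ∣ C.index`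
(`Subgroup.index_dvd_of_le`, `Subgroup.normalCore_le`).  In the finite group `G ⧸ C` every element
is killed by `n`; if `p ∣ #(G ⧸ C)` Cauchy gives an element of order `p`, so `p ∣ n`. -/
theorem exists_norm {G K Γ : Type*} [Group G] [Field K] [MulSemiringAction G K]
    [LinearOrderedCommGroupWithZero Γ] (w : Valuation K Γ) (hw : ∀ (g : G) (x : K), w (g • x) = w x)
    (H : Subgroup G) [H.Normal] {n p : ℕ} (hp : p.Prime) (hn : ¬ p ∣ n)
    (hpow : ∀ g : G, g ^ n ∈ H) {c₀ : K} (hc₀ : c₀ ≠ 0) (hfix : ∀ h ∈ H, h • c₀ = c₀)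
    (hfin : (MulAction.orbit G c₀).Finite) :
    ∃ (m : ℕ) (c : K), ¬ p ∣ m ∧ c ≠ 0 ∧ (∀ g : G, g • c = c) ∧ w c₀ ^ m = w c := by
  classical
  have hp' : Fact p.Prime := ⟨hp⟩
  have hmem : ∀ z, z ∈ hfin.toFinset ↔ z ∈ MulAction.orbit G c₀ := fun z => hfin.mem_toFinset
  refine ⟨hfin.toFinset.card, ∏ z ∈ hfin.toFinset, z, ?_, ?_, ?_, ?_⟩
  · have hidx : (MulAction.stabilizer G c₀).index = hfin.toFinset.card := by
      rw [MulAction.index_stabilizer, Set.ncard_eq_toFinset_card _ hfin]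
    have hpos : hfin.toFinset.card ≠ 0 :=
      Finset.card_ne_zero.mpr ⟨c₀, (hmem _).mpr (MulAction.mem_orbit_self c₀)⟩
    have hFI : (MulAction.stabilizer G c₀).FiniteIndex := ⟨by rw [hidx]; exact hpos⟩
    have hHC : H ≤ (MulAction.stabilizer G c₀).normalCore :=
      Subgroup.normal_le_normalCore.mpr
        (fun h hh => MulAction.mem_stabilizer_iff.mpr (hfix h hh))
    have hdvd : hfin.toFinset.card ∣ (MulAction.stabilizer G c₀).normalCore.index :=
      hidx ▸ Subgroup.index_dvd_of_le (Subgroup.normalCore_le _)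
    intro hpm
    have hpC : p ∣ Nat.card (G ⧸ (MulAction.stabilizer G c₀).normalCore) := hpm.trans hdvd
    have hF : Finite (G ⧸ (MulAction.stabilizer G c₀).normalCore) :=
      Subgroup.finite_quotient_of_finiteIndex
    obtain ⟨x, hx⟩ := exists_prime_orderOf_dvd_card' p hpC
    obtain ⟨g, rfl⟩ := QuotientGroup.mk_surjective x
    have h1 : (g : G ⧸ (MulAction.stabilizer G c₀).normalCore) ^ n = 1 := by
      rw [← QuotientGroup.mk_pow, QuotientGroup.eq_one_iff]
      exact hHC (hpow g)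
    exact hn (hx ▸ orderOf_dvd_of_pow_eq_one h1)
  · rw [Finset.prod_ne_zero_iff]
    intro z hz
    obtain ⟨g, rfl⟩ := (hmem z).mp hz
    exact (smul_ne_zero_iff_ne g).mpr hc₀
  · intro g
    rw [Finset.smul_prod']
    refine Finset.prod_bij (fun z _ => g • z) ?_ ?_ ?_ ?_
    · intro z hz
      rw [hmem] at hz ⊢
      exact MulAction.mem_orbit_of_mem_orbit g hz
    · intro z _ z' _ h
      exact smul_left_cancel g h
    · intro z hz
      refine ⟨g⁻¹ • z, ?_, smul_inv_smul g z⟩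
      rw [hmem] at hz ⊢
      exact MulAction.mem_orbit_of_mem_orbit g⁻¹ hz
    · intro z _
      rfl
  · rw [map_prod, ← Finset.prod_const]
    refine Finset.prod_congr rfl fun z hz => ?_
    obtain ⟨g, rfl⟩ := (hmem z).mp hz
    exact (hw g c₀).symm

end Fermat.Agent.LP.Frey
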