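import Fermat.Agent.LP.Frey.EOneCyc
import Fermat.Agent.LP.Frey.NormAbs

/-!
# LP-FREY (N2): from the fixed field of `H1` down to the fixed field of the inertia group
-/

set_option autoImplicit false

namespace Fermat.Agent.LP.Frey

open WeierstrassCurve WeierstrassCurve.Affine WeierstrassCurve.Affine.Point
open Fermat.Agent.S05 Fermat.Agent.S13

variable {P : FreyPackage} {A : ValuationSubring Kb} {ζ : Kb}

/-- `xc (σ • Q) = σ (xc Q)` (`S13.xc_smul`) and `S13.iv_mem_iff` -/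
theorem xc_smul_not_mem {σ : GalQ} (hσ : σ ∈ A.inertiaSubgroupIn ℚ) {Q : Pt P} (hx : xc Q ∉ A) :
    xc (σ • Q) ∉ A := by
  rw [xc_smul, iv_mem_iff A hσ]
  exact hx

lemma NormFrey_smul_nsmul (σ : GalQ) (n : ℕ) (Q : Pt P) : σ • (n • Q) = n • (σ • Q) :=
  map_nsmul (Point.map (W' := P.freyCurve) σ.toAlgHom) n Q

lemma NormFrey_smul_zero (σ : GalQ) : σ • (0 : Pt P) = 0 :=
  map_zero (Point.map (W' := P.freyCurve) σ.toAlgHom)

lemma NormFrey_tors_smul (σ : GalQ) {Q : Pt P} (hQ : P.p • Q = 0) : P.p • (σ • Q) = 0 := by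
  rw [← NormFrey_smul_nsmul, hQ, NormFrey_smul_zero]

lemma NormFrey_exists_pow (hζ : IsPrimitiveRoot ζ P.p) (σ : GalQ) :
    ∃ a : ℕ, σ ζ = ζ ^ a := by
  have hp : P.p ≠ 0 := P.pp.ne_zero
  have : NeZero P.p := ⟨hp⟩
  have h1 : (σ ζ) ^ P.p = 1 := by rw [← map_pow, hζ.pow_eq_one, map_one]
  obtain ⟨i, -, hi⟩ := hζ.eq_pow_of_pow_eq_one h1
  exact ⟨i, hi.symm⟩

/-- `H1` is normalised by the inertia group (needs `σ ζ = ζ ^ a`) -/
theorem conj_mem_H1 (hζ : IsPrimitiveRoot ζ P.p) {σ h : GalQ} (hσ : σ ∈ A.inertiaSubgroupIn ℚ)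
    (hh : h ∈ H1 P A ζ) : σ * h * σ⁻¹ ∈ H1 P A ζ := by
  obtain ⟨h1, h2, h3⟩ := mem_H1.mp hh
  have hσi : σ⁻¹ ∈ A.inertiaSubgroupIn ℚ := inv_mem hσ
  refine mem_H1.mpr ⟨mul_mem (mul_mem hσ h1) hσi, ?_, fun Q hQ hx => ?_⟩
  · obtain ⟨a, ha⟩ := NormFrey_exists_pow hζ σ⁻¹
    rw [AlgEquiv.mul_apply, AlgEquiv.mul_apply, ha, map_pow, h2, ← ha, ← AlgEquiv.mul_apply,
      mul_inv_cancel, AlgEquiv.one_apply]
  · rw [mul_smul, mul_smul, h3 _ (NormFrey_tors_smul σ⁻¹ hQ) (xc_smul_not_mem hσi hx),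
      smul_inv_smul]

lemma NormFrey_pow_apply {σ : GalQ} {a : ℕ} (ha : σ ζ = ζ ^ a) (j : ℕ) :
    (σ ^ j) ζ = ζ ^ (a ^ j) := by
  induction j with
  | zero => simp
  | succ j ih =>
    rw [pow_succ', AlgEquiv.mul_apply, ih, map_pow, ha, ← pow_mul, pow_succ']

lemma NormFrey_pow_smul {σ : GalQ} {k : ℕ} {Q : Pt P} (hk : σ • Q = k • Q) (j : ℕ) :
    (σ ^ j) • Q = (k ^ j) • Q := by
  induction j with
  | zero => simp
  | succ j ih =>
    rw [pow_succ', mul_smul, ih, NormFrey_smul_nsmul, hk, ← mul_nsmul', pow_succ]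

lemma NormFrey_nsmul_eq_of_modEq {Q : Pt P} (hQ : P.p • Q = 0) {m n : ℕ}
    (h : m ≡ n [MOD P.p]) : m • Q = n • Q := by
  have key : ∀ m : ℕ, m • Q = (m % P.p) • Q := by
    intro m
    conv_lhs => rw [← Nat.div_add_mod m P.p, add_nsmul, mul_nsmul, hQ, nsmul_zero, zero_add]
  rw [key m, key n, h]

/-- `σ ζ = ζ ^ a`, `σ • Q = k • Q` for `Q ∈ E[p] ∩ E₁` (`e1_cyclic`, `xc_smul_not_mem`), so
`σ ^ j ζ = ζ ^ (a ^ j)`, `σ ^ j • Q = k ^ j • Q`; Fermat's little theorem (`p ∤ a`, `p ∤ k`). -/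
theorem pow_pred_mem_H1 (N : NodeData P A) (hζ : IsPrimitiveRoot ζ P.p) {σ : GalQ}
    (hσ : σ ∈ A.inertiaSubgroupIn ℚ) : σ ^ (P.p - 1) ∈ H1 P A ζ := by
  have hp : P.p.Prime := P.pp
  have : Fact P.p.Prime := ⟨hp⟩
  have flt : ∀ a : ℕ, ¬ P.p ∣ a → a ^ (P.p - 1) ≡ 1 [MOD P.p] := by
    intro a ha
    have h1 : ((a : ℕ) : ZMod P.p) ≠ 0 := by
      rwa [ne_eq, ZMod.natCast_eq_zero_iff]
    have h2 := ZMod.pow_card_sub_one_eq_one h1
    rw [← ZMod.natCast_eq_natCast_iff]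
    push_cast
    exact h2
  refine mem_H1.mpr ⟨pow_mem hσ _, ?_, fun Q hQ hx => ?_⟩
  · obtain ⟨a, ha⟩ := NormFrey_exists_pow hζ σ
    have hpa : ¬ P.p ∣ a := by
      intro hd
      obtain ⟨b, rfl⟩ := hd
      rw [pow_mul, hζ.pow_eq_one, one_pow] at ha
      have : ζ = 1 := by
        apply σ.injective
        rw [ha, map_one]
      exact hζ.ne_one hp.one_lt this
    rw [NormFrey_pow_apply ha]
    have h5 := flt a hpa
    have key : ∀ m : ℕ, ζ ^ m = ζ ^ (m % P.p) := by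
      intro m
      conv_lhs => rw [← Nat.div_add_mod m P.p, pow_add, pow_mul, hζ.pow_eq_one, one_pow, one_mul]
    rw [key, h5, ← key, pow_one]
  · have hQ0 : Q ≠ 0 := by
      rintro rfl
      exact hx A.zero_mem
    obtain ⟨k, hk⟩ := e1_cyclic N hQ0 hQ hx (NormFrey_tors_smul σ hQ) (xc_smul_not_mem hσ hx)
    have hpk : ¬ P.p ∣ k := by
      intro hd
      obtain ⟨b, rfl⟩ := hd
      rw [mul_comm, mul_nsmul', hQ, nsmul_zero] at hk
      apply hQ0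
      have : σ⁻¹ • (σ • Q) = σ⁻¹ • (0 : Pt P) := by rw [hk]
      rwa [inv_smul_smul, NormFrey_smul_zero] at this
    rw [NormFrey_pow_smul hk, NormFrey_nsmul_eq_of_modEq hQ (flt k hpk), one_nsmul]

/-- the orbit is contained in the set of roots of the minimal polynomial (see
`S13.iv_exists_pow_fix` for the instance juggling) -/
theorem finite_orbit (H : Subgroup GalQ) (x : Kb) : (MulAction.orbit H x).Finite := by
  have hz : IsIntegral ℚ x := iv_isIntegral x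
  have hfin : ((minpoly ℚ x).rootSet Kb).Finite := Polynomial.rootSet_finite _ _
  refine hfin.subset ?_
  rintro _ ⟨σ, rfl⟩
  rw [Polynomial.mem_rootSet]
  refine ⟨minpoly.ne_zero hz, ?_⟩
  have := Polynomial.aeval_algHom_apply (((σ : GalQ)) : Kb →ₐ[ℚ] Kb) x (minpoly ℚ x)
  rw [minpoly.aeval, _root_.map_zero] at this
  exact this

/-- `exists_norm` for `G := A.inertiaSubgroupIn ℚ`, `H := (H1 P A ζ).subgroupOf G`, `n := p - 1`,
`hw := S13.valuation_inertia_eq`. -/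
theorem exists_norm_inertia (N : NodeData P A) (hζ : IsPrimitiveRoot ζ P.p) {c₀ : Kb} (hc₀ : c₀ ≠ 0)
    (hfix : c₀ ∈ fixF (H1 P A ζ)) :
    ∃ (m : ℕ) (c : Kb), ¬ P.p ∣ m ∧ c ≠ 0 ∧ (∀ σ ∈ A.inertiaSubgroupIn ℚ, σ c = c) ∧
      A.valuation c₀ ^ m = A.valuation c := by
  have hp : P.p.Prime := P.pp
  have hnorm : ((H1 P A ζ).subgroupOf (A.inertiaSubgroupIn ℚ)).Normal := by
    constructor
    intro h hh g
    rw [Subgroup.mem_subgroupOf] at hh ⊢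
    exact conj_mem_H1 hζ g.2 hh
  have hn : ¬ P.p ∣ P.p - 1 := by
    intro hd
    have h1 := hp.one_lt
    have := Nat.le_of_dvd (by omega) hd
    omega
  obtain ⟨m, c, h1, h2, h3, h4⟩ := exists_norm (G := A.inertiaSubgroupIn ℚ) (K := Kb)
    A.valuation (fun g x => valuation_inertia_eq A g.2 x)
    ((H1 P A ζ).subgroupOf (A.inertiaSubgroupIn ℚ)) hp hn
    (fun g => by
      rw [Subgroup.mem_subgroupOf]
      exact pow_pred_mem_H1 N hζ g.2)
    hc₀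
    (fun h hh => by
      rw [Subgroup.mem_subgroupOf] at hh
      exact mem_fixF.mp hfix _ hh)
    (finite_orbit _ c₀)
  exact ⟨m, c, h1, h2, fun σ hσ => h3 ⟨σ, hσ⟩, h4⟩

end Fermat.Agent.LP.Frey
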