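import Mathlib

/-!
# LP-FREY (R): Lagrange resolvents

`γ` an automorphism of `K` with `γ ζ = ζ`, `γ y = ζ y`, `γ ^ p T = T`.  Then `T = ∑ a i y ^ i`
with `a i = p⁻¹ (∑_j ζ ^ (-ij) γ ^ j T) y ^ (-i)` fixed by `γ`.
-/

set_option autoImplicit false

namespace Fermat.Agent.LP.Frey

open Finset

variable {G K : Type*} [Group G] [Field K] [MulSemiringAction G K]

/-- the `i`-th Lagrange coefficient of `T` with respect to `y` -/
noncomputable def resCoeff (p : ℕ) (ζ : K) (γ : G) (y T : K) (i : ℕ) : K :=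
  (p : K)⁻¹ * (∑ j ∈ range p, (ζ ^ (i * j))⁻¹ * (γ ^ j • T)) * (y ^ i)⁻¹

omit [Group G] [MulSemiringAction G K] in
/-- orthogonality of characters. -/
theorem Resolvent_orth {p : ℕ} {ζ : K} (hζ : IsPrimitiveRoot ζ p) (c : ℕ → K) {k : ℕ}
    (hk : k < p) :
    ∑ i ∈ range p, ζ ^ (i * k) * ∑ j ∈ range p, (ζ ^ (i * j))⁻¹ * c j = (p : K) * c k := by
  have hζ0 : ζ ≠ 0 := hζ.ne_zero (by omega)
  simp_rw [Finset.mul_sum]
  rw [Finset.sum_comm]
  rw [Finset.sum_eq_single k]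
  · have : ∀ i ∈ range p, ζ ^ (i * k) * ((ζ ^ (i * k))⁻¹ * c k) = c k := by
      intro i _
      rw [← mul_assoc, mul_inv_cancel₀ (pow_ne_zero _ hζ0), one_mul]
    rw [Finset.sum_congr rfl this, Finset.sum_const, card_range, nsmul_eq_mul]
  · intro j hj hjk
    have hj' : j < p := Finset.mem_range.1 hj
    set ξ : K := ζ ^ k * (ζ ^ j)⁻¹ with hξ
    have hξp : ξ ^ p = 1 := by
      rw [hξ, mul_pow, inv_pow, ← pow_mul, ← pow_mul, mul_comm k, mul_comm j, pow_mul, pow_mul,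
        hζ.pow_eq_one, one_pow, one_pow, inv_one, mul_one]
    have hξ1 : ξ ≠ 1 := by
      intro h1
      rw [hξ, mul_inv_eq_one₀ (pow_ne_zero _ hζ0)] at h1
      exact hjk (hζ.pow_inj hk hj' h1).symm
    have hgeom : ∑ i ∈ range p, ξ ^ i = 0 := by
      have h2 := geom_sum_mul ξ p
      rw [hξp, sub_self] at h2
      exact (mul_eq_zero.1 h2).resolve_right (sub_ne_zero.2 hξ1)
    have : ∀ i ∈ range p, ζ ^ (i * k) * ((ζ ^ (i * j))⁻¹ * c j) = ξ ^ i * c j := by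
      intro i _
      rw [hξ, mul_pow, inv_pow, ← pow_mul, ← pow_mul, mul_comm k, mul_comm j, mul_assoc]
    rw [Finset.sum_congr rfl this, ← Finset.sum_mul, hgeom, zero_mul]
  · intro h
    exact absurd (Finset.mem_range.2 hk) h

/-- `∑_i ζ ^ (-ij) = p` for `j = 0` and `0` for `0 < j < p`. -/
theorem sum_resCoeff {p : ℕ} (hp0 : (p : K) ≠ 0) {ζ : K} (hζ : IsPrimitiveRoot ζ p) (γ : G)
    {y : K} (hy0 : y ≠ 0) (T : K) :
    ∑ i ∈ range p, resCoeff p ζ γ y T i * y ^ i = T := by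
  have hp : 0 < p := by
    rcases Nat.eq_zero_or_pos p with rfl | h
    · exact absurd Nat.cast_zero hp0
    · exact h
  have h := Resolvent_orth hζ (fun j => γ ^ j • T) hp
  have h1 : ∀ i ∈ range p, resCoeff p ζ γ y T i * y ^ i =
      (p : K)⁻¹ * (ζ ^ (i * 0) * ∑ j ∈ range p, (ζ ^ (i * j))⁻¹ * (γ ^ j • T)) := by
    intro i _
    rw [resCoeff, mul_zero, pow_zero, one_mul, mul_assoc, inv_mul_cancel₀ (pow_ne_zero _ hy0),
      mul_one]
  rw [Finset.sum_congr rfl h1, ← Finset.mul_sum, h, pow_zero, one_smul, ← mul_assoc,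
    inv_mul_cancel₀ hp0, one_mul]

/-- `∑_i ζ ^ (i(1-j)) = p` for `j = 1` and `0` for `j < p`, `j ≠ 1`. -/
theorem sum_resCoeff_smul {p : ℕ} (hp2 : 2 ≤ p) (hp0 : (p : K) ≠ 0) {ζ : K}
    (hζ : IsPrimitiveRoot ζ p) (γ : G) {y : K} (hy0 : y ≠ 0) (T : K) :
    ∑ i ∈ range p, resCoeff p ζ γ y T i * (ζ ^ i * y ^ i) = γ • T := by
  have h := Resolvent_orth hζ (fun j => γ ^ j • T) (k := 1) (by omega)
  have h1 : ∀ i ∈ range p, resCoeff p ζ γ y T i * (ζ ^ i * y ^ i) =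
      (p : K)⁻¹ * (ζ ^ (i * 1) * ∑ j ∈ range p, (ζ ^ (i * j))⁻¹ * (γ ^ j • T)) := by
    intro i _
    rw [resCoeff, mul_one]
    have hy : (y ^ i)⁻¹ * y ^ i = 1 := inv_mul_cancel₀ (pow_ne_zero _ hy0)
    linear_combination ((p : K)⁻¹ * (∑ j ∈ range p, (ζ ^ (i * j))⁻¹ * (γ ^ j • T)) * ζ ^ i) * hy
  rw [Finset.sum_congr rfl h1, ← Finset.mul_sum, h, pow_one, ← mul_assoc,
    inv_mul_cancel₀ hp0, one_mul]

theorem Resolvent_smul_eq (g : G) (p : ℕ) (ζ : K) (γ : G) (y T : K) (i : ℕ) :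
    g • resCoeff p ζ γ y T i =
      (p : K)⁻¹ * (∑ j ∈ range p, ((g • ζ) ^ (i * j))⁻¹ * (g • (γ ^ j • T))) *
        ((g • y) ^ i)⁻¹ := by
  have e : ∀ x : K, g • x = MulSemiringAction.toRingHom G K g x := fun _ => rfl
  simp only [e, resCoeff, map_mul, map_inv₀, map_sum, map_pow, map_natCast]

/-- shift the summation index `j ↦ j + 1`; the term `j = p` equals the term `j = 0`. -/
theorem smul_resCoeff_self {p : ℕ} (hp : 0 < p) {ζ : K} (hζ : ζ ^ p = 1) {γ : G}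
    (hγζ : γ • ζ = ζ) {y : K} (hγy : γ • y = ζ * y) {T : K} (hT : γ ^ p • T = T) (i : ℕ) :
    γ • resCoeff p ζ γ y T i = resCoeff p ζ γ y T i := by
  rw [Resolvent_smul_eq, hγζ, hγy, resCoeff]
  set f : ℕ → K := fun j => (ζ ^ (i * j))⁻¹ * (γ ^ j • T) with hf
  have hshift : ∑ j ∈ range p, f (j + 1) = ∑ j ∈ range p, f j := by
    have h1 := Finset.sum_range_succ f p
    have h2 := Finset.sum_range_succ' f p
    have h3 : f p = f 0 := by
      simp only [hf]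
      rw [hT, mul_zero, pow_zero, pow_zero, one_smul, mul_comm i p, pow_mul, hζ, one_pow]
    rw [h3] at h1
    exact add_right_cancel (h2.symm.trans h1)
  have h4 : (∑ j ∈ range p, (ζ ^ (i * j))⁻¹ * (γ • (γ ^ j • T))) * (ζ ^ i)⁻¹ =
      ∑ j ∈ range p, f (j + 1) := by
    rw [Finset.sum_mul]
    refine Finset.sum_congr rfl fun j _ => ?_
    simp only [hf]
    have e1 : γ • (γ ^ j • T) = γ ^ (j + 1) • T := by rw [← mul_smul, ← pow_succ']
    have e2 : (ζ ^ (i * (j + 1)))⁻¹ = (ζ ^ (i * j))⁻¹ * (ζ ^ i)⁻¹ := by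
      rw [mul_add, mul_one, pow_add, mul_inv]
    rw [e1, e2]
    ring
  rw [mul_pow, mul_inv, ← hshift, ← h4]
  ring

theorem smul_resCoeff_of_fix {p : ℕ} {ζ : K} {γ : G} {y T : K} (h : G) (hζ : h • ζ = ζ)
    (hy : h • y = y) (hT : ∀ j : ℕ, h • (γ ^ j • T) = γ ^ j • T) (i : ℕ) :
    h • resCoeff p ζ γ y T i = resCoeff p ζ γ y T i := by
  rw [Resolvent_smul_eq, hζ, hy, resCoeff]
  simp only [hT]

end Fermat.Agent.LP.Frey
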