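import Fermat.Agent.LP.Frey.Filt
import Fermat.Agent.LP.Frey.EOneCyc

/-!
# LP-FREY (S): `H1 / HE` is cyclic of order `1` or `p`
-/

set_option autoImplicit false

namespace Fermat.Agent.LP.Frey

open WeierstrassCurve WeierstrassCurve.Affine WeierstrassCurve.Affine.Point
open Fermat.Agent.S05 Fermat.Agent.S13

variable {P : FreyPackage} {A : ValuationSubring Kb} {ζ : Kb}

lemma Struct_smul_zero (σ : GalQ) : σ • (0 : Pt P) = 0 := smul_zero (A := Pt P) σ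

lemma Struct_smul_add (σ : GalQ) (a b : Pt P) : σ • (a + b) = σ • a + σ • b :=
  smul_add (A := Pt P) σ a b

lemma Struct_smul_nsmul (σ : GalQ) (n : ℕ) (a : Pt P) : σ • (n • a) = n • (σ • a) := by
  induction n with
  | zero => rw [zero_nsmul, zero_nsmul, Struct_smul_zero]
  | succ n ih => rw [succ_nsmul, succ_nsmul, Struct_smul_add, ih]

lemma nsmul_smul_eq_zero (σ : GalQ) {Q : Pt P} (hQ : P.p • Q = 0) : P.p • (σ • Q) = 0 := by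
  rw [← Struct_smul_nsmul, hQ, Struct_smul_zero]

/-- `HE` is normalised by `H1` (indeed by the inertia group) -/
theorem conj_mem_HE {γ h : GalQ} (hγ : γ ∈ H1 P A ζ) (hh : h ∈ HE P A ζ) :
    γ⁻¹ * h * γ ∈ HE P A ζ := by
  have hmem : γ⁻¹ * h * γ ∈ H1 P A ζ :=
    mul_mem (mul_mem (inv_mem hγ) (HE_le_H1 ζ hh)) hγ
  refine ⟨hmem.1, hmem.2.1, fun Q hQ => ?_⟩
  rw [mul_smul, mul_smul, hh.2.2 _ (nsmul_smul_eq_zero γ hQ), inv_smul_smul]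

lemma Struct_pow_smul_of_fixed {γ : GalQ} {S : Pt P} (h : γ • S = S) (k : ℕ) : γ ^ k • S = S := by
  induction k with
  | zero => rw [pow_zero, one_smul]
  | succ k ih => rw [pow_succ, mul_smul, h, ih]

lemma Struct_nsmul_sub_eq_zero (γ : GalQ) {Q : Pt P} (hQ : P.p • Q = 0) :
    P.p • (γ • Q - Q) = 0 := by
  rw [nsmul_sub, nsmul_smul_eq_zero γ hQ, hQ, sub_zero]

lemma Struct_smul_sub_fixed (N : NodeData P A) (hA : A.LiesOverPrime P.p) {γ τ : GalQ}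
    (hγ : γ ∈ H1 P A ζ) (hτ : τ ∈ H1 P A ζ) {Q : Pt P} (hQ : P.p • Q = 0) :
    τ • (γ • Q - Q) = γ • Q - Q := by
  rcases inertia_sub_mem_E1 N hA hγ.1 hQ with h | h
  · rw [h, Struct_smul_zero]
  · exact hτ.2.2 _ (Struct_nsmul_sub_eq_zero γ hQ) h

/-- `S := γ • Q - Q` lies in `E[p] ∩ E₁` (`inertia_sub_mem_E1`), so it is fixed by `γ`; induction -/
theorem pow_smul_sub (N : NodeData P A) (hA : A.LiesOverPrime P.p) {γ : GalQ} (hγ : γ ∈ H1 P A ζ) {Q : Pt P}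
    (hQ : P.p • Q = 0) (k : ℕ) : γ ^ k • Q - Q = k • (γ • Q - Q) := by
  have hfix : γ • (γ • Q - Q) = γ • Q - Q := Struct_smul_sub_fixed N hA hγ hγ hQ
  induction k with
  | zero => rw [pow_zero, one_smul, sub_self, zero_nsmul]
  | succ k ih =>
    have h1 : γ ^ (k + 1) • Q = γ ^ k • (γ • Q - Q) + γ ^ k • Q := by
      rw [← Struct_smul_add, sub_add_cancel, pow_succ, mul_smul]
    rw [h1, Struct_pow_smul_of_fixed hfix, add_sub_assoc, ih, succ_nsmul, add_comm]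

theorem pow_p_mem_HE (N : NodeData P A) (hA : A.LiesOverPrime P.p) {γ : GalQ} (hγ : γ ∈ H1 P A ζ) :
    γ ^ P.p ∈ HE P A ζ := by
  have hmem : γ ^ P.p ∈ H1 P A ζ := pow_mem hγ _
  refine ⟨hmem.1, hmem.2.1, fun Q hQ => ?_⟩
  have h := pow_smul_sub N hA hγ hQ P.p
  rw [Struct_nsmul_sub_eq_zero γ hQ] at h
  exact sub_eq_zero.1 h

/-- PROOF. Choose `Q₀ ∈ E[p]` with `γ • Q₀ ≠ Q₀`; `P₁ := γ • Q₀ - Q₀ ≠ 0` lies in `E[p] ∩ E₁`.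
`Q₀` is not a multiple of `P₁` (multiples of `P₁` are fixed by `γ`).  `σ • Q₀ - Q₀` lies in
`E[p] ∩ E₁`, so it is `k • P₁` (`e1_cyclic`) `= γ ^ k • Q₀ - Q₀` (`pow_smul_sub`).  Then
`(γ ^ k)⁻¹ * σ` fixes `Q₀` and `P₁`, hence all of `E[p]` (`exists_eq_add_of_indep`). -/
theorem exists_pow_mul_mem_HE (N : NodeData P A) (hA : A.LiesOverPrime P.p) {γ : GalQ} (hγ : γ ∈ H1 P A ζ)
    (hγE : γ ∉ HE P A ζ) {σ : GalQ} (hσ : σ ∈ H1 P A ζ) :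
    ∃ k : ℕ, (γ ^ k)⁻¹ * σ ∈ HE P A ζ := by
  obtain ⟨Q₀, hQ₀, hne⟩ : ∃ Q₀ : Pt P, P.p • Q₀ = 0 ∧ γ • Q₀ ≠ Q₀ := by
    by_contra hcon
    apply hγE
    refine ⟨hγ.1, hγ.2.1, fun Q hQ => ?_⟩
    by_contra hQne
    exact hcon ⟨Q, hQ, hQne⟩
  have hP₁0 : γ • Q₀ - Q₀ ≠ 0 := sub_ne_zero.2 hne
  have hP₁p : P.p • (γ • Q₀ - Q₀) = 0 := Struct_nsmul_sub_eq_zero γ hQ₀
  have hP₁x : xc (γ • Q₀ - Q₀) ∉ A := (inertia_sub_mem_E1 N hA hγ.1 hQ₀).resolve_left hP₁0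
  have hind : ∀ k : ℕ, Q₀ ≠ k • (γ • Q₀ - Q₀) := by
    intro k hk
    apply hne
    have hfix : γ • (γ • Q₀ - Q₀) = γ • Q₀ - Q₀ := Struct_smul_sub_fixed N hA hγ hγ hQ₀
    calc γ • Q₀ = γ • (k • (γ • Q₀ - Q₀)) := by rw [← hk]
      _ = k • (γ • Q₀ - Q₀) := by rw [Struct_smul_nsmul, hfix]
      _ = Q₀ := hk.symm
  obtain ⟨k, hk⟩ : ∃ k : ℕ, σ • Q₀ - Q₀ = k • (γ • Q₀ - Q₀) := by
    rcases inertia_sub_mem_E1 N hA hσ.1 hQ₀ with h | h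
    · exact ⟨0, by rw [h, zero_nsmul]⟩
    · exact e1_cyclic N hP₁0 hP₁p hP₁x (Struct_nsmul_sub_eq_zero σ hQ₀) h
  refine ⟨k, ?_⟩
  have hmem : (γ ^ k)⁻¹ * σ ∈ H1 P A ζ := mul_mem (inv_mem (pow_mem hγ k)) hσ
  have hτQ₀ : ((γ ^ k)⁻¹ * σ) • Q₀ = Q₀ := by
    rw [← pow_smul_sub N hA hγ hQ₀ k] at hk
    have h1 : σ • Q₀ = γ ^ k • Q₀ := sub_left_injective hk
    rw [mul_smul, h1, inv_smul_smul]
  have hτP₁ : ((γ ^ k)⁻¹ * σ) • (γ • Q₀ - Q₀) = γ • Q₀ - Q₀ := hmem.2.2 _ hP₁p hP₁x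
  refine ⟨hmem.1, hmem.2.1, fun Q hQ => ?_⟩
  obtain ⟨i, j, rfl⟩ := exists_eq_add_of_indep hP₁p hQ₀ hind hP₁0 hQ
  rw [Struct_smul_add, Struct_smul_nsmul, Struct_smul_nsmul, hτP₁, hτQ₀]

end Fermat.Agent.LP.Frey
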