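import Fermat.Agent.LP.Frey.Defs

/-!
# LP-FREY (T): the test point
-/

set_option autoImplicit false

namespace Fermat.Agent.LP.Frey

open WeierstrassCurve WeierstrassCurve.Affine WeierstrassCurve.Affine.Point
open Fermat.Agent.S05 Fermat.Agent.S13

variable {P : FreyPackage} {A : ValuationSubring Kb}

/-- from `disc` and `c ∈ m` (see `hB1` in the proof of `S13.frey_local_aux`) -/
theorem val_B (N : NodeData P A) : A.valuation N.D.B = 1 := by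
  have h64 : (64 : Kb) * N.c ∈ A.nonunits := mem_mul_nonunits A (ofNat_mem A 64) N.c_mem
  have h1 : A.valuation (N.D.B ^ 2) = 1 := by
    have e1 : N.D.B ^ 2 = (N.D.B ^ 2 - 64 * N.c) + 64 * N.c := by ring
    rw [e1, Valuation.map_add_eq_of_lt_left _ (by
      rw [N.D_B, N.disc]; exact A.mem_nonunits_iff.mp h64), N.D_B, N.disc]
  rw [map_pow] at h1
  exact (pow_eq_one_iff.mp h1).resolve_right two_ne_zero

/-- the rational 2-torsion point at the node (`S05.exists_T`, `XiData.eq_T_of_ξ_eq_zero`) -/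
theorem exists_T_fixed (N : NodeData P A) : ∃ T : Pt P, T ≠ 0 ∧ N.D.ξ T = 0 ∧ ∀ σ : GalQ, σ • T = T := by
  obtain ⟨T, hT0, hTe⟩ := exists_T (P.freyCurve⁄Kb) two_ne_zero N.e N.c N.he N.hc N.c_ne
  have hξT : N.D.ξ T = 0 := by rw [N.D_ξ, hTe, sub_self]
  refine ⟨T, hT0, hξT, fun σ => ?_⟩
  have h0 : σ • T ≠ 0 := by
    intro h
    apply hT0
    have := congrArg (fun Q => σ⁻¹ • Q) h
    simpa using this
  refine N.D.eq_T_of_ξ_eq_zero h0 hT0 hξT ?_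
  rw [N.D_ξ, xc_smul, hTe, N.fix_e, sub_self]

/-- equality of valuations from equality of `n`-th powers -/
theorem Test_val_eq_of_pow_eq {x y : Kb} {n : ℕ} (hn : n ≠ 0)
    (h : A.valuation x ^ n = A.valuation y ^ n) : A.valuation x = A.valuation y :=
  (pow_left_inj₀ zero_le zero_le hn).1 h

/-- CASE 1: `ξ Q₀ ∈ m`.  `R = n • (Q₀ + T)` from `XiData.exists_good_multiple`, `g = r`:
`w (ξ R) ^ p = w c = w r ^ p`; `w (ψ R) = w (ξ R)` by `XiData.val_ψ_sq`. -/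
theorem exists_test_point_node (N : NodeData P A) (hA : A.LiesOverPrime P.p) {Q₀ : Pt P} (h0 : Q₀ ≠ 0)
    (hp : P.p • Q₀ = 0) (hx : N.D.ξ Q₀ ∈ A.nonunits) :
    ∃ (n : ℕ) (R : Pt P) (g : Kb), ¬ P.p ∣ n ∧ R ≠ 0 ∧
      (∀ σ : GalQ, σ • R - R = n • (σ • Q₀ - Q₀)) ∧ N.D.ξ R ∈ A ∧ N.D.ξ R ≠ 0 ∧
      A.valuation N.D.c ≤ A.valuation (N.D.ξ R) ∧
      A.valuation (N.D.ψ R) = A.valuation (N.D.ξ R) ∧
      (∀ σ : GalQ, σ g = g) ∧ g ≠ 0 ∧ A.valuation (N.D.ξ R) = A.valuation g := by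
  obtain ⟨T, hT0, hξT, hσT⟩ := exists_T_fixed N
  have hp2 : P.p ≠ 2 := by have := P.hp5; omega
  have hp0 : P.p ≠ 0 := P.pp.ne_zero
  have h2 := freyP_val_two P A hA
  obtain ⟨n, hn, hR0, hξ0, hpow, hlt⟩ := N.D.exists_good_multiple A (val_B N) N.c_mem N.c_ne h2
    P.pp hp2 hT0 hξT h0 hp hx
  have hc1 : A.valuation N.D.c < 1 := A.mem_nonunits_iff.mp N.c_mem
  have hx1 : A.valuation (N.D.ξ (n • (Q₀ + T))) < 1 := by
    by_contra hcon
    rw [not_lt] at hcon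
    have : 1 ≤ A.valuation (N.D.ξ (n • (Q₀ + T))) ^ P.p := one_le_pow₀ hcon
    rw [hpow] at this
    exact absurd hc1 (not_lt.mpr this)
  refine ⟨n, n • (Q₀ + T), N.r, hn, hR0, ?_, ?_, hξ0, hlt.le, ?_, N.fix_r, N.r_ne, ?_⟩
  · intro σ
    have e : σ • (n • (Q₀ + T)) = n • (σ • Q₀ + T) := by
      have e1 : σ • (n • (Q₀ + T)) = n • (σ • (Q₀ + T)) :=
        map_nsmul (Point.map (W' := P.freyCurve) σ.toAlgHom) n (Q₀ + T)
      have e2 : σ • (Q₀ + T) = σ • Q₀ + σ • T :=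
        (Point.map (W' := P.freyCurve) σ.toAlgHom).map_add Q₀ T
      rw [e1, e2, hσT σ]
    rw [e, ← nsmul_sub]
    congr 1
    abel
  · exact (A.valuation_le_one_iff _).1 hx1.le
  · have := N.D.val_ψ_sq A.valuation (val_B N) h2 hR0 hξ0 hx1 hlt
    rw [map_pow] at this
    exact Test_val_eq_of_pow_eq two_ne_zero this
  · apply Test_val_eq_of_pow_eq hp0
    rw [hpow, N.D_c, N.hcr, map_mul, N.u_unit, one_mul, map_pow]

/-- CASE 2: `ξ Q₀` a unit.  `ψ Q₀` is integral (`ψ_sq`); if it were a non-unit then by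
`dbl_formula` `ξ (2 Q₀) ∉ A`, so `2 Q₀`, hence `Q₀ = ((p+1)/2) • (2 Q₀)`, would lie in the kernel
of reduction (`S13.rp_nsmul`), contradicting `xc Q₀ ∈ A`. -/
theorem val_ψ_of_unit (N : NodeData P A) (hA : A.LiesOverPrime P.p) {Q₀ : Pt P} (h0 : Q₀ ≠ 0)
    (hp : P.p • Q₀ = 0) (hx : A.valuation (N.D.ξ Q₀) = 1) : A.valuation (N.D.ψ Q₀) = 1 := by
  have hB := val_B N
  have hBA : N.D.B ∈ A := mem_of_val_eq_one A hB
  have hcA : N.D.c ∈ A := mem_of_nonunits A N.c_mem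
  have hc1 : A.valuation N.D.c < 1 := A.mem_nonunits_iff.mp N.c_mem
  have hξA : N.D.ξ Q₀ ∈ A := mem_of_val_eq_one A hx
  obtain ⟨k, hk⟩ := P.hp_odd
  -- `Q₀ = (k + 1) • (Q₀ + Q₀)`
  have hQ : (k + 1) • (Q₀ + Q₀) = Q₀ := by
    have e : (k + 1) • (Q₀ + Q₀) = P.p • Q₀ + Q₀ := by
      rw [hk, ← two_nsmul, ← mul_nsmul', ← succ_nsmul]
      congr 1
      ring
    rw [e, hp, zero_add]
  have h2Q : Q₀ + Q₀ ≠ 0 := by
    intro h
    apply h0
    rw [← hQ, h, nsmul_zero]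
  -- `ψ` is integral
  have hle : A.valuation (N.D.ψ Q₀) ≤ 1 := by
    have h1 : N.D.ψ Q₀ ^ 2 ∈ A := by
      rw [N.D.ψ_sq Q₀ h0]
      apply_rules [add_mem, mul_mem, sub_mem, pow_mem, one_mem, ofNat_mem, natCast_mem, neg_mem]
    rw [← A.valuation_le_one_iff, map_pow] at h1
    by_contra hcon
    rw [not_le] at hcon
    exact absurd h1 (not_le.mpr (one_lt_pow₀ hcon two_ne_zero))
  rcases lt_or_eq_of_le hle with hlt | heq
  · exfalso
    have hd := congrArg A.valuation (N.D.dbl_formula Q₀ h0 h2Q)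
    have h3 : A.valuation (N.D.ξ Q₀ ^ 2 - N.D.c) = 1 := by
      rw [Valuation.map_sub_eq_of_lt_left _ (by rw [map_pow, hx, one_pow]; exact hc1), map_pow, hx,
        one_pow]
    rw [map_mul, map_pow, map_pow, h3, one_pow] at hd
    have h4 : N.D.ξ (Q₀ + Q₀) ∉ A := by
      intro hmem
      rw [← A.valuation_le_one_iff] at hmem
      have h5 : A.valuation (N.D.ψ Q₀) ^ 2 < 1 := pow_lt_one₀ zero_le hlt two_ne_zero
      have h6 : A.valuation (N.D.ξ (Q₀ + Q₀)) * A.valuation (N.D.ψ Q₀) ^ 2 < 1 :=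
        lt_of_le_of_lt (mul_le_of_le_one_left' hmem) h5
      rw [hd] at h6
      exact lt_irrefl _ h6
    have h7 : Q₀ + Q₀ ∈ E1 N.D A hBA hcA := (mem_E1 N.D A hBA hcA).2 (Or.inr h4)
    have h8 := (E1 N.D A hBA hcA).nsmul_mem h7 (k + 1)
    rw [hQ, mem_E1] at h8
    rcases h8 with h8 | h8
    · exact h0 h8
    · exact h8 hξA
  · exact heq

/-- the two cases together (`n = 1`, `R = Q₀`, `g = 1` in case 2) -/
theorem exists_test_point (N : NodeData P A) (hA : A.LiesOverPrime P.p) {Q₀ : Pt P} (h0 : Q₀ ≠ 0)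
    (hp : P.p • Q₀ = 0) (hx : xc Q₀ ∈ A) :
    ∃ (n : ℕ) (R : Pt P) (g : Kb), ¬ P.p ∣ n ∧ R ≠ 0 ∧
      (∀ σ : GalQ, σ • R - R = n • (σ • Q₀ - Q₀)) ∧ N.D.ξ R ∈ A ∧ N.D.ξ R ≠ 0 ∧
      A.valuation N.D.c ≤ A.valuation (N.D.ξ R) ∧
      A.valuation (N.D.ψ R) = A.valuation (N.D.ξ R) ∧
      (∀ σ : GalQ, σ g = g) ∧ g ≠ 0 ∧ A.valuation (N.D.ξ R) = A.valuation g := by
  have hξA : N.D.ξ Q₀ ∈ A := by
    rw [N.D_ξ]
    exact sub_mem hx N.e_mem
  by_cases hm : N.D.ξ Q₀ ∈ A.nonunits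
  · exact exists_test_point_node N hA h0 hp hm
  · have h1 : A.valuation (N.D.ξ Q₀) = 1 := (val_eq_one_iff A).2 ⟨hξA, hm⟩
    have hc1 : A.valuation N.D.c < 1 := A.mem_nonunits_iff.mp N.c_mem
    refine ⟨1, Q₀, 1, ?_, h0, fun σ => (one_nsmul _).symm, hξA, val_ne_zero_of_eq_one A h1, ?_, ?_,
      fun σ => map_one σ, one_ne_zero, ?_⟩
    · intro h
      exact P.pp.one_lt.ne' (Nat.dvd_one.mp h)
    · rw [h1]; exact hc1.le
    · rw [val_ψ_of_unit N hA h0 hp h1, h1]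
    · rw [h1, map_one]

end Fermat.Agent.LP.Frey
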