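import Fermat.Agent.LP.Frey.Kummer
import Fermat.Agent.LP.Frey.Resolvent
import Fermat.Agent.LP.Frey.Delta
import Fermat.Agent.LP.Frey.Cyclo
import Fermat.Agent.LP.Frey.Depth
import Fermat.Agent.LP.Frey.Struct
import Fermat.Agent.LP.Frey.NormFrey
import Fermat.Agent.LP.Frey.Test
import Fermat.Agent.LP.Frey.Cases

/-!
# LP-FREY: the mod `p` representation of the Frey curve is "peu ramifiée" at `p ∣ abc`
-/

set_option autoImplicit false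

namespace Fermat.Agent.LP.Frey

open WeierstrassCurve WeierstrassCurve.Affine WeierstrassCurve.Affine.Point
open Fermat.Agent.S05 Fermat.Agent.S13

variable {P : FreyPackage} {A : ValuationSubring Kb} {ζ : Kb}

/-- final inequality in the value group -/
lemma main_ineq {Γ : Type*} [LinearOrderedCommGroupWithZero Γ] {d x X z wp : Γ} {p : ℕ}
    (hp : 3 ≤ p) (hodd : Odd p) (hx : x ≠ 0)
    (h1 : d ^ 2 * x = X ^ 2) (h2 : z ^ (p - 1) = wp) (h3 : wp * x ^ ((p - 1) / 2) ≤ 1)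
    (h4 : d < X * z) : False := by
  obtain ⟨m, rfl⟩ := hodd
  have hm : m ≠ 0 := by omega
  have e1 : 2 * m + 1 - 1 = 2 * m := by omega
  have e2 : (2 * m + 1 - 1) / 2 = m := by omega
  rw [e1] at h2
  rw [e2, ← h2, pow_mul, ← mul_pow] at h3
  have h5 : z ^ 2 * x ≤ 1 := (pow_le_one_iff hm).mp h3
  have h6 : d ^ 2 < (X * z) ^ 2 := pow_lt_pow_left₀ h4 zero_le two_ne_zero
  have hx0 : 0 < x := zero_lt_iff.mpr hx
  have h7 : d ^ 2 * x < (X * z) ^ 2 * x := mul_lt_mul_of_pos_right h6 hx0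
  have h8 : (X * z) ^ 2 * x ≤ X ^ 2 := by
    calc (X * z) ^ 2 * x = X ^ 2 * (z ^ 2 * x) := by rw [mul_pow, mul_assoc]
      _ ≤ X ^ 2 * 1 := mul_le_mul_right h5 _
      _ = X ^ 2 := mul_one _
  rw [h1] at h7
  exact absurd h7 (not_lt.mpr h8)

lemma pow_apply_mul {γ : GalQ} {z y : Kb} (hz : γ z = z) (hy : γ y = z * y) (k : ℕ) :
    (γ ^ k) y = z ^ k * y := by
  induction k with
  | zero => simp
  | succ k ih =>
    rw [pow_succ', AlgEquiv.mul_apply, ih, map_mul, map_pow, hz, hy]; ring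

lemma nsmul_ne_zero_of_not_dvd {G : Type*} [AddGroup G] {p n : ℕ} (hp : p.Prime) {Q : G}
    (h0 : Q ≠ 0) (hQ : p • Q = 0) (hn : ¬ p ∣ n) : n • Q ≠ 0 := by
  have : Fact p.Prime := ⟨hp⟩
  have h := addOrderOf_eq_prime hQ h0
  intro h2
  exact hn (h ▸ addOrderOf_dvd_of_nsmul_eq_zero h2)

lemma exists_zeta_pow (hζ : IsPrimitiveRoot ζ P.p) {y : Kb} (hy0 : y ≠ 0) {H : Subgroup GalQ}
    (hyp : y ^ P.p ∈ fixF H) {γ : GalQ} (hγ : γ ∈ H) :
    ∃ j < P.p, γ y = ζ ^ j * y := by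
  have h1 : (γ y / y) ^ P.p = 1 := by
    rw [div_pow, ← map_pow, hyp γ hγ, div_self (pow_ne_zero _ hy0)]
  have : NeZero P.p := ⟨P.pp.ne_zero⟩
  obtain ⟨j, hj, hjy⟩ := hζ.eq_pow_of_pow_eq_one h1
  exact ⟨j, hj, by rw [hjy]; field_simp⟩

/-- the Lagrange coefficients lie in the fixed field of `H1` -/
lemma resCoeff_mem_fixF (N : NodeData P A) (hA : A.LiesOverPrime P.p) {γ : GalQ}
    (hγ : γ ∈ H1 P A ζ) (hγE : γ ∉ HE P A ζ) {z : Kb} (hzp : z ^ P.p = 1)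
    (hzfix : ∀ σ ∈ H1 P A ζ, σ z = z) {y : Kb} (hγy : γ y = z * y) (hyE : y ∈ fixF (HE P A ζ))
    {T : Kb} (hT : T ∈ fixF (HE P A ζ)) (i : ℕ) :
    resCoeff P.p z γ y T i ∈ fixF (H1 P A ζ) := by
  intro σ hσ
  obtain ⟨k, hk⟩ := exists_pow_mul_mem_HE N hA hγ hγE hσ
  set h := (γ ^ k)⁻¹ * σ with hh
  have hσ' : σ = γ ^ k * h := by rw [hh]; group
  have h1 : h • resCoeff P.p z γ y T i = resCoeff P.p z γ y T i := by
    apply smul_resCoeff_of_fix h (hzfix h (HE_le_H1 ζ hk)) (hyE h hk)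
    intro j
    have hc := conj_mem_HE (pow_mem hγ j) hk
    have h2 : h * γ ^ j = γ ^ j * ((γ ^ j)⁻¹ * h * γ ^ j) := by group
    rw [← mul_smul, h2, mul_smul]
    congr 1
    exact hT _ hc
  have h2 : γ • resCoeff P.p z γ y T i = resCoeff P.p z γ y T i :=
    smul_resCoeff_self P.pp.pos hzp (hzfix γ hγ) hγy (hT _ (pow_p_mem_HE N hA hγ)) i
  have h3 : ∀ k : ℕ, γ ^ k • resCoeff P.p z γ y T i = resCoeff P.p z γ y T i := by
    intro k
    induction k with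
    | zero => simp
    | succ k ih => rw [pow_succ, mul_smul, h2, ih]
  change σ • resCoeff P.p z γ y T i = _
  rw [hσ', mul_smul, h1, h3]

/-- the core: `v(y) ∈ v(F ˣ)`, `F` the fixed field of `H1` -/
theorem exists_val_eq (N : NodeData P A) (hA : A.LiesOverPrime P.p) (hζ : IsPrimitiveRoot ζ P.p)
    {y : Kb} (hy0 : y ≠ 0) (hyp : y ^ P.p ∈ fixF (H1 P A ζ)) (hyE : y ∈ fixF (HE P A ζ)) :
    ∃ c ∈ fixF (H1 P A ζ), c ≠ 0 ∧ A.valuation y = A.valuation c := by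
  by_contra hcon
  push Not at hcon
  have hyF : y ∉ fixF (H1 P A ζ) := fun h => hcon y h hy0 rfl
  rw [mem_fixF] at hyF
  push Not at hyF
  obtain ⟨γ1, hγ1, hγ1y⟩ := hyF
  obtain ⟨j, hjp, hj⟩ := exists_zeta_pow hζ hy0 hyp hγ1
  have hj0 : j ≠ 0 := by
    rintro rfl
    apply hγ1y
    rw [hj, pow_zero, one_mul]
  have hpj : ¬ P.p ∣ j := fun h => absurd (Nat.le_of_dvd (Nat.pos_of_ne_zero hj0) h) (by omega)
  have hγ1E : γ1 ∉ HE P A ζ := fun h => hγ1y (hyE γ1 h)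
  -- the point `Q₀`
  have hex : ∃ Q₀ : Pt P, P.p • Q₀ = 0 ∧ γ1 • Q₀ ≠ Q₀ := by
    by_contra h
    push Not at h
    exact hγ1E ⟨hγ1.1, hγ1.2.1, h⟩
  obtain ⟨Q₀, hQ₀, hγQ₀⟩ := hex
  have hQ₀0 : Q₀ ≠ 0 := by
    rintro rfl
    exact hγQ₀ (smul_zero (A := Pt P) γ1)
  have hxQ₀ : xc Q₀ ∈ A := by
    by_contra h
    exact hγQ₀ (hγ1.2.2 Q₀ hQ₀ h)
  set P₁ := γ1 • Q₀ - Q₀ with hP₁
  have hP₁0 : P₁ ≠ 0 := sub_ne_zero.mpr hγQ₀
  have hP₁x : xc P₁ ∉ A := (inertia_sub_mem_E1 N hA hγ1.1 hQ₀).resolve_left hP₁0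
  have hP₁p : P.p • P₁ = 0 := by
    rw [hP₁, nsmul_sub, nsmul_smul_eq_zero γ1 hQ₀, hQ₀, sub_zero]
  -- the test point
  obtain ⟨n, R, g, hn, hR0, hRσ, hξA, hξ0, hcξ, hψξ, hgfix, hg0, hξg⟩ :=
    exists_test_point N hA hQ₀0 hQ₀ hxQ₀
  have hnP0 : n • P₁ ≠ 0 := nsmul_ne_zero_of_not_dvd P.pp hP₁0 hP₁p hn
  have hnPp : P.p • (n • P₁) = 0 := by rw [← mul_nsmul', mul_comm, mul_nsmul', hP₁p, nsmul_zero]
  have hnPx : xc (n • P₁) ∉ A := (rp_nsmul P A (Or.inr hP₁x) n).resolve_left hnP0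
  obtain ⟨k, hk, hshallow⟩ := exists_shallow hnP0 hnPp hnPx
  set S := k • (n • P₁) with hS
  have hS0 : S ≠ 0 := nsmul_ne_zero_of_not_dvd P.pp hnP0 hnPp hk
  have hSx : xc S ∉ A := (rp_nsmul P A (Or.inr hnPx) k).resolve_left hS0
  -- the automorphism
  set γ := γ1 ^ k with hγdef
  have hγ : γ ∈ H1 P A ζ := pow_mem hγ1 k
  have hγR : γ • R = R + S := by
    have h1 := hRσ γ
    rw [hγdef, pow_smul_sub N hA hγ1 hQ₀ k, ← hP₁, smul_comm, ← hS] at h1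
    rw [← h1, hγdef]; abel
  set z := (ζ ^ j) ^ k with hz
  have hγ1z : γ1 (ζ ^ j) = ζ ^ j := by rw [map_pow, hγ1.2.1]
  have hγy : γ y = z * y := pow_apply_mul hγ1z hj k
  have hzprim : IsPrimitiveRoot z P.p := by
    rw [hz, ← pow_mul]
    apply hζ.pow_of_coprime
    exact (Nat.Coprime.symm ((Nat.Prime.coprime_iff_not_dvd P.pp).mpr
      (fun h => (P.pp.dvd_mul.mp h).elim hpj hk)))
  have hz1 : z ≠ 1 := hzprim.ne_one P.pp.one_lt
  have hzfix : ∀ σ ∈ H1 P A ζ, σ z = z := by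
    intro σ hσ
    rw [hz, map_pow, map_pow, hσ.2.1]
  have hγE : γ ∉ HE P A ζ := by
    intro h
    have h1 := hyE γ h
    rw [hγy] at h1
    exact hz1 (mul_right_cancel₀ hy0 (h1.trans (one_mul y).symm))
  -- the test function
  set T := N.D.ξ R with hT
  have hTE : T ∈ fixF (HE P A ζ) := by
    intro σ hσ
    have h1 := hRσ σ
    rw [hσ.2.2 Q₀ hQ₀, sub_self, smul_zero, sub_eq_zero] at h1
    rw [hT, N.D_ξ, map_sub, N.fix_e, ← xc_smul, h1]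
  have hγT : γ • T = N.D.ξ (R + S) := by
    change γ T = _
    rw [hT, N.D_ξ, N.D_ξ, map_sub, N.fix_e, ← xc_smul, hγR]
  have hp0 : (P.p : Kb) ≠ 0 := by exact_mod_cast P.pp.ne_zero
  have hzA : z ∈ A := zeta_mem A P.pp.pos hzprim.pow_eq_one
  have hK := kummer_strict A.valuation (fixF (H1 P A ζ)) P.pp hz1
    (val_zeta_pow_sub_one_le A hzA) hy0 hyp hcon (resCoeff P.p z γ y T)
    (resCoeff_mem_fixF N hA hγ hγE hzprim.pow_eq_one hzfix hγy hyE hTE)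
    (c₀ := g) (fun σ _ => hgfix σ) hg0 (by rw [sum_resCoeff hp0 hzprim γ hy0 T, hξg])
  rw [sum_resCoeff hp0 hzprim γ hy0 T, sum_resCoeff_smul P.pp.two_le hp0 hzprim γ hy0 T, hγT,
    ← hξg] at hK
  have hB : N.D.B ∈ A := by
    rw [← A.valuation_le_one_iff, val_B N]
  have hSξ : N.D.ξ S ∉ A := by
    intro h
    apply hSx
    have := A.add_mem _ _ h N.e_mem
    rwa [N.D_ξ, sub_add_cancel] at this
  have hD := delta_val N.D A hB hR0 hS0 hSξ hξA hξ0 hcξ hψξ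
  have hSval : A.valuation (N.D.ξ S) = A.valuation (xc S) := by
    rw [N.D_ξ]
    apply Valuation.map_sub_eq_of_lt_left
    calc A.valuation N.e ≤ 1 := (A.valuation_le_one_iff _).mpr N.e_mem
      _ < A.valuation (xc S) := by
        rw [← not_le, A.valuation_le_one_iff]; exact hSx
  rw [hSval] at hD
  have hxS0 : A.valuation (xc S) ≠ 0 := by
    rw [ne_eq, map_eq_zero]
    rintro h
    exact hSx (h ▸ A.zero_mem)
  exact main_ineq (by have := P.hp5; omega) (P.pp.odd_of_ne_two (by have := P.hp5; omega))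
    hxS0 hD (val_zeta_sub_one_pow A P.pp hzprim) hshallow hK

/-- **(PEU)** If `y ∈ ℚ̄ˣ` is fixed by all inertia elements acting trivially on `μ_p` and `E[p]`
and `y ^ p` is fixed by the inertia group, then a prime-to-`p` multiple of `v(y)` is the valuation
of an element fixed by the inertia group. -/
theorem frey_peu (P : FreyPackage) (hpabc : (P.p : ℤ) ∣ P.a * P.b * P.c)
    (A : ValuationSubring Kb) (hA : A.LiesOverPrime P.p) {ζ : Kb} (hζ : IsPrimitiveRoot ζ P.p)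
    {y : Kb} (hy0 : y ≠ 0)
    (hyp : ∀ σ ∈ A.inertiaSubgroupIn ℚ, σ (y ^ P.p) = y ^ P.p)
    (hyE : ∀ σ ∈ A.inertiaSubgroupIn ℚ, σ ζ = ζ →
      (∀ Q : Pt P, P.p • Q = 0 → σ • Q = Q) → σ y = y) :
    ∃ (m : ℕ) (c : Kb), ¬ P.p ∣ m ∧ c ≠ 0 ∧ (∀ σ ∈ A.inertiaSubgroupIn ℚ, σ c = c) ∧
      A.valuation y ^ m = A.valuation c := by
  obtain ⟨N⟩ := exists_nodeData P hpabc A hA
  obtain ⟨c₀, hc₀F, hc₀0, hyc⟩ := exists_val_eq N hA hζ hy0
    (fun σ hσ => hyp σ hσ.1) (fun σ hσ => hyE σ hσ.1 hσ.2.1 hσ.2.2)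
  obtain ⟨m, c, hm, hc0, hcfix, hmc⟩ := exists_norm_inertia N hζ hc₀0 hc₀F
  exact ⟨m, c, hm, hc0, hcfix, by rw [hyc, hmc]⟩

/-- **(PEU')** the same, when the fixed field of the inertia group is known to be unramified:
`v(y) ∈ ℤ v(p)`, i.e. `p ∣ v(y ^ p)`. -/
theorem frey_peu_of_unram (P : FreyPackage) (hpabc : (P.p : ℤ) ∣ P.a * P.b * P.c)
    (A : ValuationSubring Kb) (hA : A.LiesOverPrime P.p)
    (hunr : ∀ c : Kb, c ≠ 0 → (∀ σ ∈ A.inertiaSubgroupIn ℚ, σ c = c) →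
      ∃ k : ℤ, A.valuation c = A.valuation (P.p : Kb) ^ k)
    {ζ : Kb} (hζ : IsPrimitiveRoot ζ P.p) {y : Kb} (hy0 : y ≠ 0)
    (hyp : ∀ σ ∈ A.inertiaSubgroupIn ℚ, σ (y ^ P.p) = y ^ P.p)
    (hyE : ∀ σ ∈ A.inertiaSubgroupIn ℚ, σ ζ = ζ →
      (∀ Q : Pt P, P.p • Q = 0 → σ • Q = Q) → σ y = y) :
    ∃ k : ℤ, A.valuation y = A.valuation (P.p : Kb) ^ k := by
  obtain ⟨m, c, hm, hc0, hcfix, hmc⟩ := frey_peu P hpabc A hA hζ hy0 hyp hyE
  obtain ⟨k₁, hk₁⟩ := hunr c hc0 hcfix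
  obtain ⟨k₂, hk₂⟩ := hunr (y ^ P.p) (pow_ne_zero _ hy0) hyp
  have hcop : IsCoprime (m : ℤ) (P.p : ℤ) := by
    rw [Nat.isCoprime_iff_coprime]
    exact ((Nat.Prime.coprime_iff_not_dvd P.pp).mpr hm).symm
  obtain ⟨a, b, hab⟩ := hcop
  have hw0 : A.valuation y ≠ 0 := by rwa [ne_eq, map_eq_zero]
  refine ⟨a * k₁ + b * k₂, ?_⟩
  have hp0 : A.valuation (P.p : Kb) ≠ 0 := by
    rw [ne_eq, map_eq_zero]; exact_mod_cast P.pp.ne_zero
  calc A.valuation y = A.valuation y ^ (a * (m : ℤ) + b * (P.p : ℤ)) := by rw [hab, zpow_one]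
    _ = (A.valuation y ^ m) ^ a * (A.valuation y ^ P.p) ^ b := by
        rw [zpow_add₀ hw0, mul_comm a, mul_comm b, zpow_mul, zpow_mul, zpow_natCast, zpow_natCast]
    _ = A.valuation (P.p : Kb) ^ (a * k₁ + b * k₂) := by
        rw [hmc, hk₁, ← map_pow, hk₂, zpow_add₀ hp0, mul_comm a, mul_comm b, zpow_mul, zpow_mul]

end Fermat.Agent.LP.Frey
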