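import Fermat.Agent.LP.Frey.Final
import Fermat.Agent.LP.Iface

/-!
# LP-FREY: the export in the form of `LP/Iface.lean`
-/

set_option autoImplicit false

namespace Fermat.Agent.LP

theorem freyOut : FreyOut :=
  fun P hpabc A hA _ζ hζ _y hy0 hyp hyE => Frey.frey_peu_final P hpabc A hA hζ hy0 hyp hyE

end Fermat.Agent.LP
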